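import Fermat.Agent.MZ.Pull
import Fermat.Agent.BAD.AtP.PhiHecke

/-!
# Reductions at `∞` of torsion classes of `J₀(M p)`, without conditions on `M`

A class killed by `p` has a function with divisor `p D` whose reduction at `∞` is nonzero, well
defined up to `p`-th powers in the field of level `M`; `T l` acts on it through the norm of the
reduced correspondence, and it does not change under a change of level prime to `p`.
-/

set_option autoImplicit false
set_option linter.unusedSectionVars false

attribute [local instance 10000] SubalgebraClass.toAlgebra HahnSeries.powerSeriesAlgebra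

noncomputable section

open ModularCurve AlgebraicCurve IsLocalRing

namespace Fermat.MZ

open Fermat.FF Fermat.MC Fermat.JAC Fermat.JAC.X0 Fermat.RED Fermat.RED.Model Fermat.BAD
  Fermat.BAD.X0 Fermat.BAD.Corr

local notation "Qb" => AlgebraicClosure ℚ

variable {M p : ℕ} [NeZero M] [NeZero p] [Fact p.Prime] (hpM : ¬ p ∣ M)
variable [FF.IsFunctionField Qb (FN (M * p) Qb)]
variable {A : ValuationSubring (AlgebraicClosure ℚ)} (hA : A.LiesOverPrime p)

local notation "kA" => ResidueField A

/-- The expansion at `∞` of level `M p`. -/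
abbrev infExp (M p : ℕ) : FN (M * p) (AlgebraicClosure ℚ) →+* LaurentSeries (AlgebraicClosure ℚ) :=
  (FN (M * p) (AlgebraicClosure ℚ)).val.toRingHom

/-- The reduction at `∞`. -/
def infRed (f : FN (M * p) Qb) : FX kA M :=
  ⟨gRed (residue A) (infExp M p) f, (comp_bad Fact.out hA M (M * p) hpM rfl).gRed_mem_target f⟩

/-- As a Laurent series, `infRed f` is the coefficientwise reduction of the expansion of `f` at
`∞`. -/
theorem coe_infRed (f : FN (M * p) Qb) :
    (infRed hpM hA f : LaurentSeries kA) = gRed (residue A) (infExp M p) f := rfl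

/-- `infRed` is multiplicative on the functions with integral expansion at `∞`. -/
theorem infRed_mul {f g : FN (M * p) Qb} (hf : f ∈ gInt (residue A) (infExp M p))
    (hg : g ∈ gInt (residue A) (infExp M p)) :
    infRed hpM hA (f * g) = infRed hpM hA f * infRed hpM hA g :=
  Subtype.ext (by rw [MulMemClass.coe_mul, coe_infRed, coe_infRed, coe_infRed, gRed_mul hf hg])

/-- `infRed` commutes with powers of functions with integral expansion at `∞`. -/
theorem infRed_pow {f : FN (M * p) Qb} (hf : f ∈ gInt (residue A) (infExp M p)) (n : ℕ) :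
    infRed hpM hA (f ^ n) = infRed hpM hA f ^ n :=
  Subtype.ext (by rw [SubmonoidClass.coe_pow, coe_infRed, coe_infRed, gRed_pow hf])

/-- A normalised function at `∞` presenting a class killed by `p`. -/
structure InfRep (x : JZero (M * p)) (D : Divisor Qb (FN (M * p) Qb)) (y : FN (M * p) Qb)
    (c : Qb) : Prop where
  /-- `D` represents the class `x`. -/
  cls : IsCls D x
  /-- The function is nonzero. -/
  y_ne : y ≠ 0
  /-- Its divisor is `p D`. -/
  div_eq : divOf Qb y = p • D
  /-- The rescaled function has integral expansion at infinity. -/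
  int : c • y ∈ gInt (residue A) (infExp M p)
  /-- Its reduction at infinity is nonzero. -/
  red_ne : infRed hpM hA (c • y) ≠ 0

variable {hpM hA} {x x' : JZero (M * p)} {D D' : Divisor Qb (FN (M * p) Qb)}
  {y y' : FN (M * p) Qb} {c c' : Qb}

/-- The normalised function of a representation at `∞` is nonzero. -/
theorem InfRep.smul_ne (h : InfRep hpM hA x D y c) : c • y ≠ 0 := fun h0 =>
  h.red_ne (Subtype.ext (by rw [coe_infRed, h0, gRed_zero]; rfl))

/-- The normalising constant of a representation at `∞` is nonzero. -/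
theorem InfRep.c_ne (h : InfRep hpM hA x D y c) : c ≠ 0 :=
  fun h0 => h.smul_ne (by rw [h0, zero_smul])

variable (hpM hA) in
/-- Every class killed by `p` has a representation at `∞`. -/
theorem exists_infRep (hx : p • x = 0) : ∃ D y c, InfRep hpM hA x D y c := by
  obtain ⟨D, hD⟩ := exists_isCls x
  obtain ⟨y, hy, hdiv⟩ := hD.exists_div hx
  obtain ⟨c, -, hm, hne⟩ := (comp_bad Fact.out hA M (M * p) hpM rfl).prim y hy
  exact ⟨D, y, c, hD, hy, hdiv, hm, fun h0 => hne (congrArg Subtype.val h0)⟩

/-- The `j`-th power of a representation of `x` represents `j • x`, with reduction the `j`-th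
power. -/
theorem InfRep.nsmul (h : InfRep hpM hA x D y c) (j : ℕ) :
    InfRep hpM hA (j • x) (j • D) (y ^ j) (c ^ j) ∧
      infRed hpM hA (c ^ j • y ^ j) = infRed hpM hA (c • y) ^ j := by
  have e : infRed hpM hA (c ^ j • y ^ j) = infRed hpM hA (c • y) ^ j := by
    rw [← smul_pow, infRed_pow hpM hA h.int]
  refine ⟨⟨h.cls.nsmul j, pow_ne_zero j h.y_ne, ?_, ?_, ?_⟩, e⟩
  · rw [JAC.divOf_pow, h.div_eq, smul_comm]
  · rw [← smul_pow]; exact pow_mem h.int j
  · rw [e]; exact pow_ne_zero j h.red_ne

/-- **The reduction is well defined up to `p`-th powers.** -/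
theorem InfRep.unique [IsAlgClosed kA] (h : InfRep hpM hA x D y c)
    (h' : InfRep hpM hA x D' y' c') :
    PowEq p (infRed hpM hA (c • y)) (infRed hpM hA (c' • y')) := by
  have hC := comp_bad (p := p) Fact.out hA M (M * p) hpM rfl
  have hn : p ≠ 0 := (Fact.out : p.Prime).ne_zero
  -- the divisors differ by that of a function `g`, whose primitive multiple is `e • g`
  obtain ⟨hd, hcl⟩ := h'.cls.add h.cls.neg
  rw [add_neg_cancel] at hcl
  obtain ⟨g, hg, hgv⟩ :=
    AddSubgroup.mem_addSubgroupOf.mp ((QuotientAddGroup.eq_zero_iff _).mp hcl)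
  have hgd : divOf Qb g = D' + -D := Finsupp.ext fun v => by rw [divOf_apply]; exact (hgv v).symm
  obtain ⟨e, he, hem, hene⟩ := hC.prim g hg
  have heg : e • g ≠ 0 := fun h0 => hene (by rw [h0, gRed_zero])
  set z := c • y * (e • g) ^ p
  have hzm : z ∈ gInt (residue A) (infExp M p) := mul_mem h.int (pow_mem hem p)
  have hzr : infRed hpM hA z = infRed hpM hA (c • y) * infRed hpM hA (e • g) ^ p := by
    rw [infRed_mul hpM hA h.int (pow_mem hem p), infRed_pow hpM hA hem]
  have hzdiv : divOf Qb z = divOf Qb (c' • y') := by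
    rw [divOf_mul h.smul_ne (pow_ne_zero p heg), JAC.divOf_pow,
      divOf_const_smul h.c_ne h.y_ne, divOf_const_smul he hg, divOf_const_smul h'.c_ne h'.y_ne,
      h.div_eq, h'.div_eq, hgd, smul_add, smul_neg]
    abel
  -- so the second function is a constant times the first times a `p`-th power
  obtain ⟨δ, hδ, heq⟩ := JAC.exists_eq_smul_of_divOf_eq h'.smul_ne
    (mul_ne_zero h.smul_ne (pow_ne_zero p heg)) hzdiv.symm
  rw [← Algebra.smul_def] at heq
  -- the constant is a unit, with a `p`-th root in the residue field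
  have hδA : δ ∈ A := by
    by_contra hne
    have hinv : δ⁻¹ ∈ A := (A.mem_or_inv_mem δ).resolve_left hne
    have h0 : residue A ⟨δ⁻¹, hinv⟩ = 0 :=
      map_eq_zero_of_inv_notMem residue_surjective (by simpa using hne)
    have e1 := (hC.smul_mem hinv h'.int).2
    rw [show δ⁻¹ • (c' • y') = z by rw [heq, inv_smul_smul₀ hδ], h0, map_zero, zero_mul] at e1
    exact mul_ne_zero h.red_ne (pow_ne_zero p fun h1 => hene (congrArg Subtype.val h1))
      (hzr.symm.trans (Subtype.ext (e1.trans rfl)))
  have hred : infRed hpM hA (c' • y') =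
      algebraMap kA (FX kA M) (residue A ⟨δ, hδA⟩) * infRed hpM hA z :=
    Subtype.ext (by rw [coe_infRed, heq, MulMemClass.coe_mul]; exact (hC.smul_mem hδA hzm).2)
  have hπ : residue A ⟨δ, hδA⟩ ≠ 0 := fun h0 => h'.red_ne (by
    rw [hred, h0, map_zero, zero_mul])
  obtain ⟨a, ha⟩ := IsAlgClosed.exists_pow_nat_eq (residue A ⟨δ, hδA⟩) (Nat.pos_of_ne_zero hn)
  refine ⟨algebraMap kA (FX kA M) a * infRed hpM hA (e • g),
    mul_ne_zero ((_root_.map_ne_zero _).mpr fun h0 => hπ (by rw [← ha, h0, zero_pow hn]))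
      (fun h1 => hene (congrArg Subtype.val h1)), ?_⟩
  rw [hred, hzr, mul_pow, ← map_pow, ha]
  ring

/-- `T l` of a presentation. -/
theorem InfRep.heckeT (h : InfRep hpM hA x D y c) {l : ℕ} [NeZero l] (hl : l.Prime)
    (hlN : ¬ l ∣ M * p) :
    ∃ D' y', InfRep hpM hA (heckeOperatorBar (M * p) ⟨l, hl⟩ x) D' y' 1 ∧
      infRed hpM hA ((1 : Qb) • y') = nbarM kA M l (infRed hpM hA (c • y)) := by
  have hp : p.Prime := Fact.out
  have hlp : l ≠ p := fun e => hlN (by rw [e]; exact dvd_mul_left p M)
  have hlM : ¬ l ∣ M := fun h => hlN (dvd_mul_of_dvd_left h p)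
  have : IsFunctionField Qb (FN (M * p * l) Qb) := MC.isFunctionField_FN (M * p * l) embC
  have := Model.isAlgClosed_residue A
  have : FF.IsFunctionField kA (modularFunctionFieldFullC kA M) :=
    Fermat.RED.Cusps.isFunctionField (natCast_ne_zero_residue A hp hA hpM)
  have : IsFunctionField kA (modularFunctionFieldFullC kA (M * l)) :=
    Fermat.RED.Cusps.isFunctionField (natCast_mul_ne_zero hp hA hl hlp hpM)
  set α := heckeAlphaBar Qb (M * p) l
  set β := heckeBetaBar Qb (M * p) l
  set z := normAlong α (β (c • y)) with hz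
  have hz0 : z ≠ 0 := normAlong_ne_zero α ((_root_.map_ne_zero _).mpr h.smul_ne)
  obtain ⟨⟨hD, hcl⟩, hy0, hdiv, hint, hne⟩ := id h
  have hpull : pullDiv β D ∈ Divisor.degZero := by
    rw [Divisor.mem_degZero, degree_pullDiv, Divisor.mem_degZero.mp hD, mul_zero]
  have hpush : pushDiv α (pullDiv β D) ∈ Divisor.degZero := by
    rw [Divisor.mem_degZero, degree_pushDiv]
    exact Divisor.mem_degZero.mp hpull
  have hcls : IsCls (pushDiv α (pullDiv β D)) (heckeOperatorBar (M * p) ⟨l, hl⟩ x) := by
    refine ⟨hpush, ?_⟩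
    rw [← hcl]
    refine ((heckeOperatorBar_eq (M * p) (⟨l, hl⟩ : Nat.Primes) (Pic0.mk ⟨D, hD⟩)).trans
      ((congrArg (pushPic α) (pullPic_mk β ⟨D, hD⟩ hpull)).trans
        (pushPic_mk α ⟨_, hpull⟩ hpush))).symm
  obtain ⟨hm, hr⟩ := gRed_heckeNorm hp hA hl hlp hpM hlM (M * p) rfl (f := c • y) hint
  have hred : infRed hpM hA z = nbarM kA M l (infRed hpM hA (c • y)) := Subtype.ext hr
  refine ⟨pushDiv α (pullDiv β D), z, ⟨hcls, hz0, ?_, ?_, ?_⟩, by rw [one_smul, hred]⟩
  · rw [← map_nsmul, ← map_nsmul, ← hdiv, ← divOf_const_smul h.c_ne hy0, pullDiv_divOf,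
      pushDiv_divOf α ((_root_.map_ne_zero _).mpr h.smul_ne)]
  · rw [one_smul]; exact hm
  · rw [one_smul, hred]
    exact normAlong_ne_zero _ ((_root_.map_ne_zero _).mpr hne)

/-- **The reduction of an eigen class is an eigen function up to powers.** -/
theorem InfRep.powEq_nbar [IsAlgClosed kA] (h : InfRep hpM hA x D y c) {l : ℕ} [NeZero l]
    (hl : l.Prime) (hlN : ¬ l ∣ M * p) {a : ℕ}
    (hx : heckeOperatorBar (M * p) ⟨l, hl⟩ x = a • x) :
    PowEq p (infRed hpM hA (c • y) ^ a) (nbarM kA M l (infRed hpM hA (c • y))) := by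
  obtain ⟨D', y', h1, e1⟩ := h.heckeT hl hlN
  obtain ⟨h2, e2⟩ := h.nsmul a
  rw [← e1, ← e2]
  rw [hx] at h1
  exact h2.unique h1

section Up

variable {M' : ℕ} [NeZero M'] {hpM' : ¬ p ∣ M'} [FF.IsFunctionField Qb (FN (M' * p) Qb)]
  [FF.IsFunctionField Qb (FN M' Qb)]
  [IsAlgClosed (ResidueField A)] [CharP (ResidueField A) p] [FF.IsFunctionField (ResidueField A)
    (modularFunctionFieldFullC (ResidueField A) M')]
  (X : Degen (residue A) (Fermat.BAD.X0.emb M' p Fact.out hpM')
    (modularFunctionFieldFullC (ResidueField A) M'))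
  (h : M * p ∣ M' * p) (h0 : M ∣ M')

/-- **A change of level keeps the reduction at `∞`.** -/
theorem InfRep.pull (hr : InfRep hpM hA x D y c) :
    X.Rep p true (pullN h x) (pullDiv (inclN h) D) (inclN h y) c ∧
      X.red true (c • inclN h y) =
        IntermediateField.inclusion (full_degeneracyC_le kA h0) (infRed hpM hA (c • y)) := by
  obtain ⟨⟨hD, hcl⟩, hy0, hdiv, hint, hne⟩ := id hr
  obtain ⟨hm, hg⟩ := map_gInt (π := residue A) (ι := infExp M p)
    (ι' := Fermat.BAD.X0.emb M' p Fact.out hpM' true) (α := inclN h)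
    (fun f => coe_inclN h f) hint
  have hsm : inclN h (c • y) = c • inclN h y := by
    rw [Algebra.smul_def, map_mul, AlgHom.commutes, ← Algebra.smul_def]
  have he : X.red true (c • inclN h y) =
      IntermediateField.inclusion (full_degeneracyC_le kA h0) (infRed hpM hA (c • y)) := by
    refine Subtype.ext ?_
    rw [IntermediateField.coe_inclusion, coe_infRed, Degen.coe_red, ← hsm]
    exact hg
  refine ⟨⟨⟨pullDiv_mem_degZero h hD, ?_⟩, (map_ne_zero _).mpr hy0, ?_, ?_, ?_⟩, he⟩
  · rw [← hcl]
    exact (pullPic_mk (inclN h) ⟨D, hD⟩ (pullDiv_mem_degZero h hD)).symm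
  · rw [← map_nsmul, ← hdiv, pullDiv_divOf]
  · rw [← hsm]; exact hm
  · rw [he]; exact (map_ne_zero _).mpr hne

end Up

end Fermat.MZ

end
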