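import Fermat.Agent.MZ.Residual
import Fermat.Agent.BAD.AtP.BridgeW0

/-!
# Good primes and eigen groups for irreducible residual representations

`exists_good_prime_irr` gives a good prime without eigenvalue one, and `exists_w0_away_irr` the
group `W₀` inside `J₀(N)`.
-/

set_option autoImplicit false

attribute [local instance 10000] SubalgebraClass.toAlgebra HahnSeries.powerSeriesAlgebra

noncomputable section

open ModularCurve

namespace Fermat.MZ

open Fermat.GR.RT Fermat.BAD.AtP

local notation "Γℚ" => (AlgebraicClosure ℚ ≃ₐ[ℚ] AlgebraicClosure ℚ)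

section Residual

variable {p : ℕ} [Fact p.Prime] {rb : Γℚ →* GL (Fin 2) (ZMod p)}

/-- **A good prime without eigenvalue one.** -/
theorem exists_good_prime_irr (hp2 : 2 < p) (hrb : IsIrrResidual p rb) (M : ℕ) [NeZero M] :
    ∃ i : GoodPrime rb M, trFrob rb i.1 ≠ ((i.1 + 1 : ℕ) : ZMod p) := by
  obtain ⟨σ, hσ⟩ := (hrb.oddImage hp2).exists_det_sub_one_ne hp2
  refine exists_good_prime_of_det hrb.isOpen_ker hrb.det_eq (σ := σ) (fun h1 => hσ ?_) M
  rw [← h1]
  simp only [Matrix.det_fin_two, Matrix.trace_fin_two, Matrix.sub_apply, Matrix.one_apply_eq,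
    Matrix.one_apply_ne (show (0 : Fin 2) ≠ 1 by decide),
    Matrix.one_apply_ne (show (1 : Fin 2) ≠ 0 by decide), sub_zero]
  ring

section Construction

variable {M : ℕ} (N : ℕ) [NeZero N] (hN : N ∣ M * p)

include hN in
/-- **The group `W₀`:** a nonzero subgroup of `J₀(N)`, quadratic for `rb`, with the Hecke
eigenvalues of `rb` away from `M`. -/
theorem exists_w0_away_irr {L : ℕ} [NeZero L] (hM : M ≠ 0) (hLN : L ∣ N)
    (hrb : IsIrrResidual p rb) (hmod : ModularOf p rb L) :
    ∃ W : AddSubgroup (JZero N), W ≠ ⊥ ∧ IsQuadratic rb W ∧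
      ∀ i : GoodPrime rb M, ∀ x ∈ W,
        heckeOperatorBar N i.toPrimes x = (trFrob rb i.1).val • x :=
  exists_w0_away_of_det N hN hM hLN hrb.isOpen_ker hrb.det_eq hmod

end Construction

end Residual

end Fermat.MZ

end
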