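import Fermat.Agent.MZ.Down
import Fermat.Agent.MZ.W0
import Fermat.Agent.BAD.AtP.NoEigen
import Fermat.Agent.BAD.Ord.LevelUp

/-!
# No eigen groups at level `M p` off modularity of level `M`, by a change of level

An eigen group of level `M p` is pulled back to a level `M' p` with `r ≡ 11 (mod 12)` dividing `M'`.
The pushforwards to level `M'` still vanish, so the norms of presentations are powers; the
reductions at `∞` are powers as soon as divisibility of the orders descends from `M'` to `M`, for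
then the reduction at level `M` is a power or gives modularity of level `M`.

`map_pullN_eq_bot_ord` and `map_pullN_eq_bot_ss`; `Main` turns them into modularity of level `M`.
-/

set_option autoImplicit false

attribute [local instance 10000] SubalgebraClass.toAlgebra HahnSeries.powerSeriesAlgebra

noncomputable section

open ModularCurve AlgebraicCurve IsLocalRing

namespace Fermat.MZ

open Fermat.FF Fermat.MC Fermat.JAC Fermat.BAD Fermat.BAD.X0 Fermat.BAD.Corr Fermat.BAD.AtP
  Fermat.GR.RT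

local notation "Qb" => AlgebraicClosure ℚ
local notation "Γℚ" => (AlgebraicClosure ℚ ≃ₐ[ℚ] AlgebraicClosure ℚ)

variable {M M' p : ℕ} [NeZero M] [NeZero M'] [NeZero p] [Fact p.Prime] (hpM : ¬ p ∣ M)
  (hpM' : ¬ p ∣ M') (h : M * p ∣ M' * p) (h0 : M ∣ M')
variable [FF.IsFunctionField Qb (FN (M * p) Qb)] [FF.IsFunctionField Qb (FN M Qb)]
  [FF.IsFunctionField Qb (FN (M' * p) Qb)] [FF.IsFunctionField Qb (FN M' Qb)]
variable {rb : Γℚ →* GL (Fin 2) (ZMod p)} {V : AddSubgroup (JZero (M * p))}

omit [IsFunctionField Qb ↥(FN M Qb)] [IsFunctionField Qb ↥(FN M' Qb)] in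
/-- The pullback of a quadratic group is quadratic. -/
theorem isQuadratic_map_pullN (hV : IsQuadratic rb V) : IsQuadratic rb (V.map (pullN h)) := by
  refine ⟨fun z hz => ?_, fun σ z hz => ?_, fun σ z hz => ?_, fun σ hσ z hz => ?_⟩ <;>
    obtain ⟨x, hx, rfl⟩ := AddSubgroup.mem_map.mp hz
  · rw [← map_nsmul, hV.torsion x hx, map_zero]
  · exact AddSubgroup.mem_map.mpr ⟨σ • x, hV.stable σ x hx, pullN_galois h σ x⟩
  · rw [← pullN_galois, ← pullN_galois, ← map_nsmul, ← map_nsmul, ← map_sub, ← map_add,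
      hV.relation σ x hx, map_zero]
  · rw [← pullN_galois, hV.ker_fixed σ hσ x hx]

include hpM hpM' h0 in
/-- **Both pushforwards of the pullback vanish.** -/
theorem push_pullN_eq_zero (hmod : ¬ ModularOf p rb M) (hV : IsQuadratic rb V)
    (hT : ∀ i : GoodPrime rb M, ∀ x ∈ V,
      heckeOperatorBar (M * p) i.toPrimes x = (trFrob rb i.1).val • x)
    {z : JZero (M' * p)} (hz : z ∈ V.map (pullN h)) (b : Bool) :
    pushPic (degMap M' p b) z = 0 := by
  obtain ⟨x, hx, rfl⟩ := AddSubgroup.mem_map.mp hz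
  obtain ⟨h1, h2⟩ := push_w0_eq_zero hmod hV hT hx
  refine Fermat.BAD.Ord.pushPic_pullPic_eq_zero (norm_inclN (Fact.out : p.Prime) hpM hpM' h h0 b)
    (Fact.out : p.Prime).ne_zero (hV.torsion x hx) ?_
  cases b
  exacts [h2, h1]

variable {A : ValuationSubring (AlgebraicClosure ℚ)} (hA : A.LiesOverPrime p)
  [IsAlgClosed (ResidueField A)] [CharP (ResidueField A) p]
  [FF.IsFunctionField (ResidueField A) (modularFunctionFieldFullC (ResidueField A) M)]
  [FF.IsFunctionField (ResidueField A) (modularFunctionFieldFullC (ResidueField A) M')]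
variable {r : ℕ} (hr : r.Prime) (h12 : r % 12 = 11) (hrM : r ∣ M')

local notation "kA" => ResidueField A

/-- Divisibility of orders descends from level `M'` to level `M` for eigen functions. -/
def Descends (A : ValuationSubring (AlgebraicClosure ℚ)) (rb : Γℚ →* GL (Fin 2) (ZMod p))
    [IsAlgClosed (ResidueField A)]
    [FF.IsFunctionField (ResidueField A) (modularFunctionFieldFullC (ResidueField A) M)]
    [FF.IsFunctionField (ResidueField A) (modularFunctionFieldFullC (ResidueField A) M')]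
    (h0 : M ∣ M') : Prop :=
  ∀ H : modularFunctionFieldFullC (ResidueField A) M, H ≠ 0 →
    (∀ v : Place (ResidueField A) (modularFunctionFieldFullC (ResidueField A) M'), (p : ℤ) ∣
      v.ord (IntermediateField.inclusion (full_degeneracyC_le (ResidueField A) h0) H)) →
    (∀ (i : GoodPrime rb M) [NeZero i.1],
      PowEq p (H ^ (trFrob rb i.1).val) (nbarM (ResidueField A) M i.1 H)) →
    ∀ P : Place (ResidueField A) (modularFunctionFieldFullC (ResidueField A) M), (p : ℤ) ∣ P.ord H

include hpM in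
/-- **Ordinary case**: both reductions of a presentation of a pulled back class are powers. -/
theorem exists_pow_red_pull (hp2 : 2 < p) (hrb : IsIrrResidual p rb)
    {R : RatData (residue A) (Fermat.BAD.X0.emb M' p Fact.out hpM')}
    (W : FOData (degenR M' p Fact.out hpM' hA hr h12 hrM) R p (p : Qb))
    (hdown : Descends A rb h0) (hmod : ¬ ModularOf p rb M) (hV : IsQuadratic rb V)
    (hT : ∀ i : GoodPrime rb M, ∀ x ∈ V,
      heckeOperatorBar (M * p) i.toPrimes x = (trFrob rb i.1).val • x)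
    {x : JZero (M * p)} (hx : x ∈ V) {l : ℕ} {D : Divisor.degZero (K := Qb) (F := FN (M' * p) Qb)}
    {y : FN (M' * p) Qb} {c1 c0 : Qb} (hD : Pic0.mk D = pullN h x)
    (hP : Degen.Pres (degenR M' p Fact.out hpM' hA hr h12 hrM) R p l
      (D : Divisor Qb (FN (M' * p) Qb)) y c1 c0) :
    (∃ z, Degen.red (degenR M' p Fact.out hpM' hA hr h12 hrM) true (c1 • y) = z ^ p) ∧
      ∃ z, Degen.red (degenR M' p Fact.out hpM' hA hr h12 hrM) false (c0 • y) = z ^ p := by
  have hp : p.Prime := Fact.out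
  obtain ⟨s₀, hs₀⟩ := SS_nonempty M' p hp hpM' hA
  obtain ⟨hoff, hon, -, -⟩ := Degen.Pres.orders hp W hP hs₀
  have hrep := (Degen.Pres.rep hP (⟨D.2, hD⟩ : IsCls _ (pullN h x))).1
  -- a prime `i` with Frobenius eigenvalue unlike `i + 1` makes all orders divisible by `p`
  obtain ⟨i, hi⟩ := exists_good_prime_irr hp2 hrb M'
  have : NeZero i.1 := ⟨i.2.1.ne_zero⟩
  have hil : ¬ i.1 ∣ M * p := fun hd => i.2.2.1 (hd.trans h)
  have hTx : heckeOperatorBar (M' * p) ⟨i.1, i.2.1⟩ (pullN h x) =
      (trFrob rb i.1).val • pullN h x :=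
    (pullN_heckeOperatorBar h hp.ne_zero ⟨i.1, i.2.1⟩ i.2.2.1 (hV.torsion x hx)).symm.trans
      ((congrArg (pullN h) (hT ⟨i.1, i.2.1, hil, i.2.2.2⟩ x hx)).trans (map_nsmul _ _ _))
  have hall := dvd_ord_all_of_prime hA hp rfl (ord_hbar_degenR hpM' hA hr h12 hrM)
    hrep.red_ne hoff hs₀ hon
    i.2.1 i.2.2.1 (Fermat.BAD.AtP.powEq_nbar hA hrep hp.ne_zero i.2.1 i.2.2.1 hTx)
    (by rw [ZMod.natCast_zmod_val]; exact hi)
  -- compare with the pull back of a presentation at the lower level
  obtain ⟨D', y', c', hrd⟩ := exists_infRep hpM hA (hV.torsion x hx)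
  obtain ⟨hru, hre⟩ := hrd.pull (degenR M' p Fact.out hpM' hA hr h12 hrM) h h0
  have hpow := Degen.Rep.unique hp.ne_zero hrep hru
  rw [hre] at hpow
  set H := infRed hpM hA (c' • y')
  have heig : ∀ (j : GoodPrime rb M) [NeZero j.1],
      PowEq p (H ^ (trFrob rb j.1).val) (nbarM kA M j.1 H) := fun j _ =>
    hrd.powEq_nbar j.2.1 j.2.2.1 (hT j x hx)
  have hHdvd := hdown H hrd.red_ne (fun v => by
    have := dvd_add (hpow.dvd_ord hrep.red_ne v) (hall v)
    rwa [sub_add_cancel] at this) heig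
  -- whose reduction is a power by descent and the absence of a system of level `M`
  obtain ⟨z, hz⟩ := exists_pow_eq_of_eigen hp hpM hA hmod hrd.red_ne hHdvd heig
  obtain ⟨s, hs, es⟩ := hpow
  have h1 : ∃ g, Degen.red (degenR M' p Fact.out hpM' hA hr h12 hrM) true (c1 • y) = g ^ p := by
    refine ⟨IntermediateField.inclusion (full_degeneracyC_le kA h0) z / s, ?_⟩
    rw [div_pow, ← map_pow, ← hz, eq_div_iff (pow_ne_zero p hs)]
    exact es.symm
  -- the other component follows, as the pushforwards of the class vanish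
  refine ⟨h1, exists_pow_false hA hP ?_ h1⟩
  exact exists_root_normAlong (degMap M' p true) hp.ne_zero
    (by
      rw [hD]
      exact push_pullN_eq_zero hpM hpM' h h0 hmod hV hT (AddSubgroup.mem_map_of_mem _ hx) true)
    hP.y_ne hP.div_eq

/-- **A presentation with power reductions and power norms gives the data over the larger
field.** -/
theorem powerPres_of_push {V' : AddSubgroup (JZero (M' * p))} {a₀ a₁ e : ℕ}
    {F : LocalField p A rb a₀} {F' : LocalField p A rb a₁}
    (hle : F.M ≤ F'.M) (hpe : p ∣ e)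
    (hup : ∀ (a : Qb) (i : ℤ), HasVal A F.ρ a i → HasVal A F'.ρ a ((e : ℤ) * i))
    (ND : ∀ b, NormData (degenR M' p Fact.out hpM' hA hr h12 hrM)
      (Inst.ratData M' p Fact.out hpM' F') b (FN M' Qb))
    (hND : ∀ b f, (ND b).N f = normAlong (degMap M' p b) f)
    (hpush : ∀ z ∈ V', ∀ b, pushPic (degMap M' p b) z = 0)
    {z : JZero (M' * p)} (hz : z ∈ V') {l : ℕ}
    {D : Divisor.degZero (K := Qb) (F := FN (M' * p) Qb)} {y : FN (M' * p) Qb} {c1 c0 : Qb}
    (hD : Pic0.mk D = z)
    (hP : Degen.Pres (degenR M' p Fact.out hpM' hA hr h12 hrM) (Inst.ratData M' p Fact.out hpM' F)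
      p l (D : Divisor Qb (FN (M' * p) Qb)) y c1 c0)
    (h1 : ∃ g, Degen.red (degenR M' p Fact.out hpM' hA hr h12 hrM) true (c1 • y) = g ^ p)
    (h0 : ∃ g, Degen.red (degenR M' p Fact.out hpM' hA hr h12 hrM) false (c0 • y) = g ^ p) :
    Nonempty (PowerPres (degenR M' p Fact.out hpM' hA hr h12 hrM)
      (Inst.ratData M' p Fact.out hpM' F') ND z) := by
  obtain ⟨s, hsM, hs0, hμ, hν, hone⟩ :=
    exists_scale p hpe hup hP.c1_mem hP.c0_mem hP.c1_ne hP.c0_ne
  obtain ⟨z1, hz1⟩ := h1
  obtain ⟨z0, hz0⟩ := h0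
  exact ⟨{ D := D, class_eq := hD, l₀ := l, y := y, c1 := c1, c0 := c0
           pres := pres_mono M' p Fact.out hpM' F F' hle hP
           e := s, e_mem := hsM, e_ne := hs0, mu := hμ, nu := hν, mu_one := hone
           hh := fun b => cond b z1 z0, red_true := hz1, red_false := hz0
           norm_pow := fun b => by
             obtain ⟨Wt, hWt⟩ := exists_root_normAlong (degMap M' p b) (Fact.out : p.Prime).ne_zero
               (by rw [hD]; exact hpush z hz b) hP.y_ne hP.div_eq
             exact ⟨Wt, hWt.trans (hND b y).symm⟩ }⟩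

variable (hdown : Descends A rb h0) (hmod : ¬ ModularOf p rb M) (hV : IsQuadratic rb V)
  (hT : ∀ i : GoodPrime rb M, ∀ x ∈ V,
    heckeOperatorBar (M * p) i.toPrimes x = (trFrob rb i.1).val • x)
include hpM hpM' hA hr h12 hrM h0 hmod hV hT

omit [IsFunctionField (ResidueField ↥A) ↥(modularFunctionFieldFullC (ResidueField ↥A) M)] in
/-- **No pulled back eigen group in the supersingular case.** -/
theorem map_pullN_eq_bot_ss (hA' : Fermat.EC.Val.IsPlace A p) (S : SSLocal p A rb) :
    V.map (pullN h) = ⊥ := by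
  obtain ⟨a₁, F', T', e, hγ, hle, hpe, -, hup⟩ := LocalField.exists_extend S.F hA' S.T
  obtain ⟨ND, hN⟩ := exists_normData hpM' hA hr h12 hrM F'
  obtain ⟨E⟩ := engineData_degenR hpM' hA hr h12 hrM F' T' ND
  have hV' := isQuadratic_map_pullN h hV
  refine eq_bot_of_no_one E hV' (fun z hz => ?_) (by rw [hγ]; exact S.no_one)
  obtain ⟨l, D, y, c1, c0, hD, hP⟩ := exists_pres_of_mem hpM' hA hr h12 hrM S.F hV' hz
  obtain ⟨hr1, hr0⟩ := Degen.Pres.rep hP (⟨D.2, hD⟩ : IsCls _ z)
  exact powerPres_of_push hpM' hA hr h12 hrM hle hpe hup ND hN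
    (fun _ => push_pullN_eq_zero hpM hpM' h h0 hmod hV hT) hz hD hP
    (exists_pow_red_of_move S.F rfl S.T.mem S.T.maps hV' S.no_one hz hr1)
    (exists_pow_red_of_move S.F rfl S.T.mem S.T.maps hV' S.no_one hz hr0)

include hdown in
/-- **No pulled back eigen group in the ordinary case.** -/
theorem map_pullN_eq_bot_ord (hp2 : 2 < p) (hrb : IsIrrResidual p rb)
    (hA' : Fermat.EC.Val.IsPlace A p) (O : OrdLocal p A rb) : V.map (pullN h) = ⊥ := by
  obtain ⟨a₁, F', T', e, hγ, hle, hpe, -, hup⟩ := LocalField.exists_extend O.F hA' O.T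
  obtain ⟨ND, hN⟩ := exists_normData hpM' hA hr h12 hrM F'
  obtain ⟨E⟩ := engineData_degenR hpM' hA hr h12 hrM F' T' ND
  have hV' := isQuadratic_map_pullN h hV
  have hP' : ∀ z ∈ V.map (pullN h), Nonempty (PowerPres (degenR M' p Fact.out hpM' hA hr h12 hrM)
      (Inst.ratData M' p Fact.out hpM' F') ND z) := by
    intro z hz
    obtain ⟨l, D, y, c1, c0, hD, hP⟩ := exists_pres_of_mem hpM' hA hr h12 hrM O.F hV' hz
    obtain ⟨x, hx, rfl⟩ := AddSubgroup.mem_map.mp hz
    let FO := Inst.foData M' p Fact.out hpM' (degenR M' p Fact.out hpM' hA hr h12 hrM) rfl O.F O.σ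
      O.move O.lead O.lead_ne O.move_rho (by omega)
      (Inst.node_fixed M' p Fact.out hpM' hA O.F (degenR M' p Fact.out hpM' hA hr h12 hrM) rfl rfl
        (fun _ _ => rfl) (ord_hbar_degenR hpM' hA hr h12 hrM) O.σ)
    obtain ⟨h1, h1'⟩ :=
      exists_pow_red_pull hpM hpM' h h0 hA hr h12 hrM hp2 hrb FO hdown hmod hV hT hx hD hP
    exact powerPres_of_push hpM' hA hr h12 hrM hle hpe hup ND hN
      (fun _ => push_pullN_eq_zero hpM hpM' h h0 hmod hV hT) hz hD hP h1 h1'
  by_contra hne
  have hrb' : (rb T'.γ : Matrix (Fin 2) (Fin 2) (ZMod p)) =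
      (O.P : Matrix (Fin 2) (Fin 2) (ZMod p)) * !![O.c, 0; 0, 1] *
        (↑O.P⁻¹ : Matrix (Fin 2) (Fin 2) (ZMod p)) := by rw [hγ]; exact O.rb_move
  refine false_of_scalar_noLine hrb.noLine hV' hne O.c_ne O.c_ne_one O.P hrb' fun z hz => ?_
  have hdet : (rb T'.γ : Matrix (Fin 2) (Fin 2) (ZMod p)).det = O.c := by
    rw [hrb', Matrix.det_units_conj, Matrix.det_fin_two]
    simp
  rw [smul_eq_det E hV' hP' hz, hdet]

end Fermat.MZ

end
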