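import Fermat.Agent.MZ.GeoHecke
import Fermat.Agent.BAD.AtP.PhiHecke

/-!
# Divisible pullbacks in characteristic three

If the pullback to level `M r` of an eigen function up to cubes has divisor divisible by three and
some eigenvalue is not `l + 1`, then the divisor is already divisible by three at level `M`.
-/

set_option autoImplicit false

attribute [local instance 10000] SubalgebraClass.toAlgebra HahnSeries.powerSeriesAlgebra

noncomputable section

open ModularCurve AlgebraicCurve

namespace Fermat.MZ.Geo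

open Fermat.FF Fermat.MC Fermat.JAC Fermat.JAC.X0 Fermat.RED Fermat.RED.Model Fermat.BAD.Corr
  Fermat.BAD

local notation "Qb" => AlgebraicClosure ℚ

/-- If `n` divides every multiplicity of `D`, it divides every multiplicity of its image under
`f`. -/
theorem dvd_mapDomain {α β : Type*} (f : α → β) {n : ℤ} {D : α →₀ ℤ} (hD : ∀ a, n ∣ D a) (b : β) :
    n ∣ Finsupp.mapDomain f D b := by
  classical
  rw [Finsupp.mapDomain, Finsupp.sum_apply]
  exact Finset.dvd_sum fun a _ => by
    dsimp only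
    rw [Finsupp.single_apply]
    split_ifs
    exacts [hD a, dvd_zero n]

/-- A divisor with all multiplicities divisible by `n` is `n` times a divisor. -/
theorem exists_eq_smul_of_dvd {α : Type*} {n : ℤ} {D : α →₀ ℤ} (hD : ∀ a, n ∣ D a) :
    ∃ E : α →₀ ℤ, D = n • E :=
  ⟨D.mapRange (fun z => z / n) (Int.zero_ediv n), Finsupp.ext fun a => by
    rw [Finsupp.smul_apply, Finsupp.mapRange_apply, smul_eq_mul, Int.mul_ediv_cancel' (hD a)]⟩

/-- If the points where `h` is nonzero mod `n` lift to points that `T` multiplies by `c` mod `n`,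
then `T' h ≡ c h` mod `n`. -/
theorem dvd_sub_of_lift {α β : Type*} [Nonempty α] (ρ : α → β) (T : (α →₀ ℤ) →+ (α →₀ ℤ))
    (T' : (β →₀ ℤ) →+ (β →₀ ℤ)) (dα : (α →₀ ℤ) →+ ℤ) (dβ : (β →₀ ℤ) →+ ℤ)
    (hd : ∀ D, dβ (Finsupp.mapDomain ρ D) = dα D) (hd1 : ∀ a n, dα (Finsupp.single a n) = n)
    (hT : ∀ D, dα D = 0 → Finsupp.mapDomain ρ (T D) = T' (Finsupp.mapDomain ρ D))
    {n : ℤ} (c : ℤ) {h : β →₀ ℤ} (hh : dβ h = 0)
    (hlift : ∀ b, ¬ n ∣ h b → ∃ a, ρ a = b ∧
      ∀ v, n ∣ (T (Finsupp.single a 1) - c • Finsupp.single a (1 : ℤ) : α →₀ ℤ) v) (b : β) :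
    n ∣ T' h b - c * h b := by
  classical
  set B := h.support.filter fun b => ¬ n ∣ h b
  choose Q hQρ hQT using fun b (hb : b ∈ B) => hlift b (Finset.mem_filter.mp hb).2
  -- lift the part of `h` nonzero modulo `n`, and correct the degree
  set D₀ : α →₀ ℤ := ∑ b ∈ B.attach, h b.1 • Finsupp.single (Q b.1 b.2) (1 : ℤ) with hD₀
  have hm : Finsupp.mapDomain ρ D₀ = ∑ b ∈ B, h b • Finsupp.single b (1 : ℤ) := by
    rw [hD₀, ← Finsupp.mapDomain.addMonoidHom_apply, map_sum,
      ← Finset.sum_attach B (fun b => h b • Finsupp.single b (1 : ℤ))]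
    refine Finset.sum_congr rfl fun b _ => ?_
    rw [map_zsmul, Finsupp.mapDomain.addMonoidHom_apply, Finsupp.mapDomain_single, hQρ]
  obtain ⟨E, hE⟩ := exists_eq_smul_of_dvd (D := h - Finsupp.mapDomain ρ D₀) (n := n) fun v => by
    rw [Finsupp.sub_apply, hm, Finsupp.finsetSum_apply]
    simp only [Finsupp.smul_apply, Finsupp.single_apply, smul_eq_mul, mul_ite, mul_one, mul_zero,
      Finset.sum_ite_eq']
    split_ifs with hv
    · rw [sub_self]; exact dvd_zero _
    · rw [sub_zero]
      by_contra hn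
      exact hv (Finset.mem_filter.mpr
        ⟨Finsupp.mem_support_iff.mpr fun h0 => hn (h0 ▸ dvd_zero _), hn⟩)
  obtain ⟨Q₀⟩ := ‹Nonempty α›
  set Y : α →₀ ℤ := Finsupp.single Q₀ (dβ E)
  set D := D₀ + n • Y with hD
  have hD0 : dα D = 0 := by
    have h1 := congrArg dβ hE
    rw [map_sub, hh, hd, map_zsmul, smul_eq_mul] at h1
    rw [hD, map_add, map_zsmul, smul_eq_mul, hd1]
    linarith
  -- `T D ≡ c D` modulo `n`; push it down
  have hG : ∀ v, n ∣ (T D - c • D) v := fun v => by
    have e : T D - c • D = (∑ b ∈ B.attach, h b.1 •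
        (T (Finsupp.single (Q b.1 b.2) (1 : ℤ)) - c • Finsupp.single (Q b.1 b.2) (1 : ℤ))) +
          n • (T Y - c • Y) := by
      simp only [smul_sub, Finset.sum_sub_distrib, ← map_zsmul, hD, hD₀, map_add, map_sum,
        smul_add, Finset.smul_sum, smul_comm c]
      abel
    rw [e, Finsupp.add_apply, Finsupp.finsetSum_apply]
    refine dvd_add (Finset.dvd_sum fun b _ => ?_) ?_
    · rw [Finsupp.smul_apply, smul_eq_mul]
      exact (hQT b.1 b.2 v).mul_left _
    · rw [Finsupp.smul_apply, smul_eq_mul]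
      exact dvd_mul_right _ _
  have hρD : Finsupp.mapDomain ρ D = h + n • (Finsupp.mapDomain ρ Y - E) := by
    have hm' : Finsupp.mapDomain ρ D₀ = h - n • E := by rw [← hE, sub_sub_cancel]
    rw [hD, Finsupp.mapDomain_add, Finsupp.mapDomain_smul, hm', smul_sub]
    abel
  have h1 := dvd_mapDomain ρ hG b
  rw [Finsupp.mapDomain_sub, Finsupp.mapDomain_smul, hT D hD0, hρD, map_add, map_zsmul, smul_add,
    smul_comm c, Finsupp.sub_apply, Finsupp.add_apply, Finsupp.add_apply, Finsupp.smul_apply,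
    Finsupp.smul_apply, Finsupp.smul_apply, smul_eq_mul, smul_eq_mul, smul_eq_mul,
    add_sub_add_comm, ← mul_sub] at h1
  exact (dvd_add_left (dvd_mul_right n _)).mp h1

/-- Reduction of the correspondence on divisors between two subfields of series. -/
theorem mapDomain_tbar_sub {L : Type*} [Field L] {A : ValuationSubring L} {k : Type*} [Field k]
    {π : A →+* k} {T T' : IntermediateField k (LaurentSeries k)} (l : ℕ) [NeZero l] (hle : T ≤ T')
    (hmap : ∀ z ∈ T, qExpand k l z ∈ T') [IsAlgClosed L] [IsAlgClosed k]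
    [FF.IsFunctionField k T] [FF.IsFunctionField k T']
    {S S' : IntermediateField L (LaurentSeries L)} [FF.IsFunctionField L S]
    [FF.IsFunctionField L S'] {ρ : Place L S → Place k T}
    (hρ : IsSeriesReduction A π S T ρ) (hdiv : PicDivisible L S)
    (h : Comp π S.val.toRingHom T) (h' : Comp π S'.val.toRingHom T')
    {α β : S →ₐ[L] S'} (hα : ∀ f, (α f : LaurentSeries L) = (f : LaurentSeries L))
    (hβ : ∀ f, (β f : LaurentSeries L) = qExpand L l (f : LaurentSeries L))
    (hd : 0 < finrankAlong k (IntermediateField.inclusion hle))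
    (hdeg : finrankAlong k (IntermediateField.inclusion hle) = finrankAlong L α)
    {D : Divisor L S} (hD : Divisor.degree D = 0) :
    Finsupp.mapDomain ρ ((pushDiv α).comp (pullDiv β) D) =
      tbar l hle hmap (Finsupp.mapDomain ρ D) :=
  mapDomain_tbar (ι' := S'.val.toRingHom) l hle hmap hρ hdiv h h' hα hβ hd hdeg hD

variable {M r : ℕ} [NeZero M] [NeZero (M * r)] {A : ValuationSubring (AlgebraicClosure ℚ)}

local notation "kA" => IsLocalRing.ResidueField A

set_option linter.unusedVariables false in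
/-- **Divisibility by three descends from level `M r`**, for an eigen function up to cubes with an
eigenvalue which is not `l + 1`. -/
theorem dvd_ord_of_pull_three [IsAlgClosed kA] [CharP kA 3]
    [FF.IsFunctionField kA (modularFunctionFieldFullC kA M)]
    [FF.IsFunctionField kA (modularFunctionFieldFullC kA (M * r))]
    (hA : A.LiesOverPrime 3) (hM : ¬ 3 ∣ M) (hr : r.Prime) (h12 : r % 12 = 11)
    {H : modularFunctionFieldFullC kA M} (hH : H ≠ 0)
    (hup : ∀ v : Place kA (modularFunctionFieldFullC kA (M * r)), (3 : ℤ) ∣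
      v.ord (IntermediateField.inclusion (full_degeneracyC_le kA (Dvd.intro r rfl)) H))
    {l : ℕ} [NeZero l] (hl : l.Prime) (hlM : ¬ l ∣ M * 3) {a : ℕ}
    (hHl : PowEq 3 (H ^ a) (nbarM kA M l H)) (hal : (a : ZMod 3) ≠ ((l + 1 : ℕ) : ZMod 3)) :
    ∀ P : Place kA (modularFunctionFieldFullC kA M), (3 : ℤ) ∣ P.ord H := by
  classical
  have h3 := Nat.prime_three
  have hl3 : l ≠ 3 := fun e => hlM (e ▸ dvd_mul_left 3 M)
  have hlM' : ¬ l ∣ M := fun h => hlM (dvd_mul_of_dvd_left h 3)
  have hMl : ¬ 3 ∣ M * l := fun h => (h3.dvd_mul.mp h).elim hM fun h =>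
    hl3 ((Nat.prime_dvd_prime_iff_eq h3 hl).mp h).symm
  have : NeZero (M * l) := ⟨mul_ne_zero (NeZero.ne M) hl.ne_zero⟩
  have : FF.IsFunctionField Qb (FN M Qb) := MC.isFunctionField_FN M embC
  have : FF.IsFunctionField Qb (FN (M * l) Qb) := MC.isFunctionField_FN (M * l) embC
  have : FF.IsFunctionField kA (modularFunctionFieldFullC kA (M * l)) :=
    Fermat.RED.Cusps.isFunctionField (natCast_mul_ne_zero h3 hA hl hl3 hM)
  -- the Hecke correspondence commutes with reduction
  obtain ⟨ρ, hρ⟩ := exists_seriesReduction_modL M h3 hM A hA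
  have hdeg := finrank_incl (k := kA) hl hlM' (natCast_mul_ne_zero h3 hA hl hl3 hM)
  have hT : ∀ D : Divisor Qb (FN M Qb), Divisor.degree D = 0 →
      Finsupp.mapDomain ρ (((pushDiv (heckeAlphaBar Qb M l)).comp
        (pullDiv (heckeBetaBar Qb M l))) D) = tbarM kA M l (Finsupp.mapDomain ρ D) :=
    fun D hD => mapDomain_tbar_sub l (fullC_mono (dvd_mul_right M l)) (qExpand_fullC_le kA M l) hρ
      (picDivisible_modularFunctionFieldBar M) (comp_good h3 hA M hM)
      (comp_good h3 hA (M * l) hMl) (α := heckeAlphaBar Qb M l) (β := heckeBetaBar Qb M l)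
      (coe_heckeAlphaBar M l) (coe_heckeBetaBar M l)
      (by rw [hdeg]; omega) (by rw [hdeg, CongX0.finrankAlong_alpha_bar M l hl hlM']) hD
  intro P
  -- so `T l` multiplies `div H` by `l + 1` modulo three
  have h1 := dvd_sub_of_lift ρ
    ((pushDiv (heckeAlphaBar Qb M l)).comp (pullDiv (heckeBetaBar Qb M l))) (tbarM kA M l)
    Divisor.degree Divisor.degree hρ.degree_mapDomain
    (fun R n => by rw [Divisor.degree_single, FF.deg_eq_one]; push_cast; ring) hT
    (n := 3) ((l : ℤ) + 1) (h := divOf kA H) (degree_divOf H) (fun R hR => by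
      rw [divOf_apply] at hR
      obtain ⟨h1, h2⟩ := (dvd_ord_or_ord_jk_le hA hM hr h12 hup R).resolve_left hR
      obtain ⟨Q, hQ, hQj⟩ :=
        exists_ord_one_of_reduction (natCast_ne_zero_residue A h3 hA hM) hρ h1 h2
      exact ⟨Q, hQ, dvd_hecke_single M l hl hlM' hQj⟩) P
  have e1 : tbarM kA M l (divOf kA H) P = P.ord (nbarM kA M l H) := by
    rw [tbar_divOf l _ _ hH, divOf_apply]
  rw [e1, divOf_apply] at h1
  -- and also by `a`, which differs from `l + 1`
  have h2 := hHl.dvd_ord (pow_ne_zero a hH) P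
  rw [FF.ord_pow] at h2
  push_cast at h2
  have h4 : (3 : ℤ) ∣ ((a : ℤ) - ((l : ℤ) + 1)) * P.ord H := by
    rw [sub_mul]
    omega
  refine ((Nat.prime_iff_prime_int.mp h3).dvd_mul.mp h4).resolve_left fun h => hal ?_
  rw [← sub_eq_zero]
  have := (ZMod.intCast_zmod_eq_zero_iff_dvd _ 3).mpr h
  push_cast at this ⊢
  exact this

end Fermat.MZ.Geo

end
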