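import Fermat.Agent.BAD.Corr.X0Comp

/-!
# Elliptic points of order three under the two degeneracy maps

A simple zero of `j` at level `M l` is a point `τ` fixed by an element `η` of `Γ₀ (M l)` of trace
one; an element `a + b η` of determinant `l` gives one of `Γ₀ (M)` sending `τ` to `l τ`, so
pullbacks from level `M` along the two degeneracy maps have the same order there.
-/

set_option autoImplicit false
set_option linter.unusedSectionVars false

noncomputable section

open ModularCurve AlgebraicCurve Filter Topology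
open UpperHalfPlane hiding I
open scoped MatrixGroups Manifold

namespace Fermat.MZ.Geo

open Fermat.FF Fermat.MC Fermat.JAC.X0
open CongruenceSubgroup (Gamma0)

local notation "Qb" => AlgebraicClosure ℚ
local notation "δ₃" => (ModularGroup.S * ModularGroup.T : SL(2, ℤ))

/-- An element of norm `l` in the ideal of a root of `X ^ 2 - X + 1` modulo `l`. -/
theorem exists_norm_eq_prime {l : ℕ} (hl : l.Prime) {p : ℤ} (hp : (l : ℤ) ∣ p ^ 2 - p + 1) :
    ∃ a b : ℤ, (l : ℤ) ∣ a + b * p ∧ a ^ 2 + a * b + b ^ 2 = l := by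
  classical
  have : NeZero l := ⟨hl.ne_zero⟩
  set k := Nat.sqrt l
  have hk : k * k < l := by
    refine lt_of_le_of_ne (Nat.sqrt_le l) fun h => ?_
    rcases (Nat.dvd_prime hl).mp (Dvd.intro k h) with h1 | h1
    · rw [h1, one_mul] at h
      exact hl.ne_one h.symm
    · rw [h1] at h
      exact hl.ne_one (mul_left_cancel₀ hl.ne_zero (h.trans (mul_one l).symm))
  -- by pigeonhole some small pair `(a, b)` has `a + b p ≡ 0 (mod l)`
  obtain ⟨x, y, hne, hxy⟩ := Fintype.exists_ne_map_eq_of_card_lt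
    (fun x : Fin (k + 1) × Fin (k + 1) =>
      (((x.1 : ℕ) : ℤ) + ((x.2 : ℕ) : ℤ) * p : ZMod l)) (by
      rw [ZMod.card, Fintype.card_prod, Fintype.card_fin]
      exact Nat.lt_succ_sqrt l)
  set a : ℤ := ((x.1 : ℕ) : ℤ) - ((y.1 : ℕ) : ℤ) with ha
  set b : ℤ := ((x.2 : ℕ) : ℤ) - ((y.2 : ℕ) : ℤ) with hb
  have hdvd : (l : ℤ) ∣ a + b * p := by
    rw [← ZMod.intCast_zmod_eq_zero_iff_dvd]
    simp only [Int.cast_natCast] at hxy
    simp only [ha, hb, Int.cast_add, Int.cast_sub, Int.cast_mul, Int.cast_natCast]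
    linear_combination hxy
  have hk' : ((k : ℤ) * k) < l := by exact_mod_cast hk
  have hbd : ∀ i j : Fin (k + 1), (((i : ℕ) : ℤ) - ((j : ℕ) : ℤ)) ^ 2 < l := fun i j => by
    have := i.isLt
    have := j.isLt
    nlinarith
  have ha2 : a ^ 2 < l := hbd x.1 y.1
  have hb2 : b ^ 2 < l := hbd x.2 y.2
  have hne0 : a ≠ 0 ∨ b ≠ 0 := by
    by_contra! h
    refine hne (Prod.ext (Fin.ext ?_) (Fin.ext ?_)) <;> omega
  -- the norm is a positive multiple `t l` with `t < 3`
  have hpos : 0 < a ^ 2 + a * b + b ^ 2 := by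
    rcases hne0 with h | h <;>
    · have := sq_pos_of_ne_zero h
      nlinarith [sq_nonneg (2 * a + b), sq_nonneg (a + 2 * b)]
  have hlt : a ^ 2 + a * b + b ^ 2 < 3 * l := by nlinarith [sq_nonneg (a - b)]
  obtain ⟨t, ht⟩ : (l : ℤ) ∣ a ^ 2 + a * b + b ^ 2 := by
    rw [show a ^ 2 + a * b + b ^ 2 = (a + b * p) * (a + b - b * p) + b ^ 2 *
      (p ^ 2 - p + 1) by ring]
    exact dvd_add (hdvd.mul_right _) (hp.mul_left _)
  have hl0 : (0 : ℤ) < l := by exact_mod_cast hl.pos
  have ht1 : 0 < t := pos_of_mul_pos_right (ht ▸ hpos) hl0.le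
  have ht3 : t < 3 := by nlinarith
  refine ⟨a, b, hdvd, ?_⟩
  interval_cases t
  · rw [ht, mul_one]
  -- `t = 2` would make both `a` and `b` even, and then `l = 2`, which the congruence excludes
  exfalso
  have h2 : ∀ u v : ZMod 2, u ^ 2 + u * v + v ^ 2 = 0 → u = 0 ∧ v = 0 := by decide
  have hab := h2 a b (by
    have h := congrArg (fun n : ℤ => (n : ZMod 2)) ht
    push_cast at h
    rw [h, show (2 : ZMod 2) = 0 from by decide, mul_zero])
  obtain ⟨a', ha'⟩ := (ZMod.intCast_zmod_eq_zero_iff_dvd a 2).mp hab.1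
  obtain ⟨b', hb'⟩ := (ZMod.intCast_zmod_eq_zero_iff_dvd b 2).mp hab.2
  rw [ha', hb'] at ht
  push_cast at ht
  have hl2 : ((2 : ℕ) : ℤ) ∣ (l : ℤ) := ⟨a' ^ 2 + a' * b' + b' ^ 2, by push_cast; linarith⟩
  obtain rfl := ((Nat.prime_dvd_prime_iff_eq Nat.prime_two hl).mp (Int.natCast_dvd_natCast.mp hl2))
  have h3 : ∀ u : ZMod 2, u ^ 2 - u + 1 ≠ 0 := by decide
  refine h3 p ?_
  have := (ZMod.intCast_zmod_eq_zero_iff_dvd (p ^ 2 - p + 1) 2).mpr hp
  push_cast at this
  exact this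

section Moebius

variable (M l : ℕ) [NeZero M] [NeZero l]

/-- A fixed point of an element of trace one of `Γ₀ (M l)` is moved by `Γ₀ (M)` to `l` times
itself. -/
theorem exists_smul_eq_scale (hl : l.Prime) {η : SL(2, ℤ)}
    (hη : η ∈ Gamma0 (M * l)) (htr : η 0 0 + η 1 1 = 1) {z : ℍ}
    (hz : η • z = z) :
    ∃ γ ∈ Gamma0 M, γ • z = affH (posN l) 0 z := by
  rw [CongruenceSubgroup.Gamma0_mem, ZMod.intCast_zmod_eq_zero_iff_dvd] at hη
  obtain ⟨c, hc⟩ := hη
  push_cast at hc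
  have hdet : η 0 0 * η 1 1 - η 0 1 * η 1 0 = 1 := by
    have := η.det_coe
    rwa [Matrix.det_fin_two] at this
  obtain ⟨a, b, ⟨u, hu⟩, hab⟩ := exists_norm_eq_prime hl (p := η 0 0)
    ⟨-(η 0 1 * (M * c)), by linear_combination -hdet + η 0 0 * htr - η 0 1 * hc⟩
  have hl0 : (l : ℤ) ≠ 0 := by exact_mod_cast hl.ne_zero
  let γ : SL(2, ℤ) := ⟨!![a + b * η 1 1, -(b * η 0 1); -(b * (M * c)), u], by
    rw [Matrix.det_fin_two_of]
    refine mul_left_cancel₀ hl0 ?_
    linear_combination -(a + b * η 1 1) * hu + hab + a * b * htr + b ^ 2 * hdet +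
      b ^ 2 * η 0 1 * hc⟩
  refine ⟨γ, ?_, ?_⟩
  · rw [CongruenceSubgroup.Gamma0_mem, ZMod.intCast_zmod_eq_zero_iff_dvd]
    exact ⟨-(b * c), by simp [γ]; ring⟩
  have h0 := congrArg (fun w : ℍ => (w : ℂ)) hz
  simp only [coe_sl_smul] at h0
  rw [div_eq_iff (sl_denom_ne_zero η z)] at h0
  refine UpperHalfPlane.ext ?_
  rw [coe_sl_smul, coe_affH, div_eq_iff (sl_denom_ne_zero γ z)]
  have hc' : (η 1 0 : ℂ) = (M : ℂ) * l * c := by exact_mod_cast hc
  have hu' : (a : ℂ) + b * η 0 0 = l * u := by exact_mod_cast hu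
  simp [γ, posN]
  linear_combination (z : ℂ) * hu' - (b : ℂ) * h0 - (b : ℂ) * (z : ℂ) ^ 2 * hc'

/-- Scaling by `l` keeps the order at such a point. -/
theorem analyticOrderAt_scale {f : ℍ → ℂ} (hf : MDiff f) {γ : SL(2, ℤ)} (hinv : compSL γ f = f)
    {z : ℍ} (hz : γ • z = affH (posN l) 0 z) :
    analyticOrderAt (ext (f ∘ affH (posN l) 0)) z = analyticOrderAt (ext f) z := by
  have he : ext (f ∘ affH (posN l) 0) =ᶠ[𝓝 (z : ℂ)] ext f ∘ fun w : ℂ => (l : ℂ) * w := by
    filter_upwards [isOpen_upperHalfPlaneSet.mem_nhds z.im_pos] with w hw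
    have hw' : 0 < ((l : ℂ) * w).im := by
      have : 0 < (l : ℝ) := by exact_mod_cast NeZero.pos l
      simpa using mul_pos this hw
    simp only [ext, Function.comp_apply, ofComplex_apply_of_im_pos hw,
      ofComplex_apply_of_im_pos hw']
    congr 1
    apply UpperHalfPlane.ext
    simp [coe_affH, posN]
  rw [analyticOrderAt_congr he, analyticOrderAt_comp_of_deriv_ne_zero (by fun_prop) (by
    simp [NeZero.ne l]), show (l : ℂ) * (z : ℂ) = ((γ • z : ℍ) : ℂ) by
    rw [hz, coe_affH]; simp [posN], ← (order_compSL hf γ z).1, hinv]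

end Moebius

section Fixed

variable (N : ℕ) [NeZero N] [FF.IsFunctionField Qb (FN N Qb)]

open scoped Classical in
/-- Over `ρ` the order of a function at a place is at most the number of points giving the place:
the order is `3` only for an unramified point, whose three rotations give the same place. -/
theorem ord_le_card_fibre {x : FN N Qb} {Φ : CosetN N → Place Qb (FN N Qb)} {m : CosetN N → ℤ}
    (hΦ : ∀ q, 0 < (Φ q).ord x) (hxΦ : ∀ q, m q * (Φ q).ord x = 3)
    (hm : ∀ q, ∀ h : FN N Qb, h ≠ 0 → ordT (tauPt N embC rhoH q) h = m q * (Φ q).ord h)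
    (hδ : ∀ q, Φ (δ₃⁻¹ • q) = Φ q) (q : CosetN N) :
    (Φ q).ord x ≤ ((Finset.univ.filter fun q' => Φ q' = Φ q).card : ℤ) := by
  set fib : Place Qb (FN N Qb) → Finset (CosetN N) :=
    fun P => Finset.univ.filter fun q => Φ q = P
  change _ ≤ ((fib (Φ q)).card : ℤ)
  have hmem : q ∈ fib (Φ q) := by simp [fib]
  -- the order is one or three
  have h1 : (Φ q).ord x = 1 ∨ (Φ q).ord x = 3 := by
    have hd : (Φ q).ord x ∣ 3 := ⟨m q, by linarith [hxΦ q]⟩
    have := Int.le_of_dvd (by norm_num) hd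
    have hp := hΦ q
    generalize (Φ q).ord x = n at hd this hp ⊢
    interval_cases n <;> omega
  rcases h1 with h1 | h1
  · rw [h1]
    exact_mod_cast Finset.card_pos.mpr ⟨q, hmem⟩
  -- of order three: the point is not fixed by `δ₃`, so three points give the place
  have hq : δ₃⁻¹ • q ≠ q := fun hfix => by
    obtain ⟨t, ht0, ht⟩ := exists_ord_eq_one (Φ q)
    obtain ⟨a, b, ha, hb, -, he⟩ := ordT_tau N embC ht0
    have hd : (3 : ℤ) ∣ m q := by
      have := hm q t ht0
      rw [ht, mul_one] at this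
      rw [← this, tauPt, he]
      exact_mod_cast dvd_sub (Lvl.dvd_order_evPtQ (Gamma0 N) rhoH ST_smul_rhoH isPrimitiveRoot_ST
          hfix ha)
        (Lvl.dvd_order_evPtQ (Gamma0 N) rhoH ST_smul_rhoH isPrimitiveRoot_ST
          hfix hb)
    obtain ⟨d, hd⟩ := hd
    have := hxΦ q
    rw [hd, h1] at this
    omega
  have hq2 : δ₃⁻¹ • δ₃⁻¹ • q ≠ q := fun h => hq (by
    have h3 : δ₃⁻¹ • δ₃⁻¹ • δ₃⁻¹ • q = q := by
      rw [smul_smul, smul_smul, ← mul_inv_rev, ← mul_inv_rev, inv_smul_eq_iff,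
        show δ₃ * (δ₃ * δ₃) = δ₃ ^ 3 by rw [pow_succ', pow_two]]
      exact (SL2.ST_cube_smul_coset (SL2.neg_one_mem_Gamma0 N) q).symm
    calc δ₃⁻¹ • q = δ₃⁻¹ • δ₃⁻¹ • δ₃⁻¹ • q := by rw [h]
      _ = q := h3)
  have hsub : {q, δ₃⁻¹ • q, δ₃⁻¹ • δ₃⁻¹ • q} ⊆ fib (Φ q) := by
    intro a ha
    simp only [Finset.mem_insert, Finset.mem_singleton] at ha
    rcases ha with rfl | rfl | rfl <;>
      simp only [fib, Finset.mem_filter, Finset.mem_univ, true_and, hδ]
  have hc3 : ({q, δ₃⁻¹ • q, δ₃⁻¹ • δ₃⁻¹ • q} : Finset (CosetN N)).card = 3 :=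
    Finset.card_eq_three.mpr ⟨_, _, _, hq.symm, hq2.symm,
      fun h => hq ((smul_left_cancel_iff _).mp h).symm, rfl⟩
  rw [h1]
  exact_mod_cast hc3.symm.le.trans (Finset.card_le_card hsub)

/-- A simple zero of `j` comes from a coset fixed by the elliptic element. -/
theorem exists_fixed_of_ord_eq_one {S : Place Qb (FN N Qb)} (hS : S.ord (jL N Qb) = 1) :
    ∃ q : CosetN N, δ₃ • q = q ∧
      ∀ h : FN N Qb, h ≠ 0 → ordT (tauPt N embC rhoH q) h = 3 * S.ord h := by
  classical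
  set x := jL N Qb - algebraMap Qb (FN N Qb) 0 with hx
  have hSx : S.ord x = 1 := by rw [hx, map_zero, sub_zero, hS]
  have hz : jA rhoH = embC 0 := by rw [jA_rhoH, map_zero]
  have h3 : multJ rhoH = 3 := by rw [multJ, if_pos jA_rhoH]
  have hc := fun q (c : Qb) (hc : c ≠ 0) => ordT_tauPt_algebraMap N embC rhoH q hc
  have hn0 : (0 : ℤ) < (multJ rhoH : ℤ) := by exact_mod_cast multJ_pos rhoH
  have hn := ordT_tauPt_jL_sub N embC hz
  -- each point over `ρ` gives a place `Φ q` and an index `m q`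
  choose Φ hΦ m hm0 hm using exists_pullback_family (τ := tauPt N embC rhoH) (x := x) hc hn0 hn
  have huniq : ∀ q (P : Place Qb (FN N Qb)) (m' : ℤ), 0 < m' →
      (∀ h : FN N Qb, h ≠ 0 → ordT (tauPt N embC rhoH q) h = m' * P.ord h) → Φ q = P :=
    fun q P m' hm' h' => by
    refine place_eq_of_le fun f hf => ?_
    rw [mem_iff] at hf ⊢
    refine hf.imp_right fun h1 => ?_
    rcases eq_or_ne f 0 with rfl | hf0
    · simp
    have h2 : 0 ≤ m' * P.ord f := by rw [← h' f hf0, hm q f hf0]; exact mul_nonneg (hm0 q).le h1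
    exact nonneg_of_mul_nonneg_right h2 hm'
  -- the rotation `δ₃` does not change the place
  have hδ : ∀ q, Φ (δ₃⁻¹ • q) = Φ q := fun q => huniq _ (Φ q) (m q) (hm0 q) fun h h0 => by
    obtain ⟨a, b, ha, hb, -, he⟩ := ordT_tau N embC h0
    rw [← hm q h h0]
    simp only [tauPt, he, Lvl.order_evPtQ_smul (Gamma0 N) rhoH ST_smul_rhoH q ha,
      Lvl.order_evPtQ_smul (Gamma0 N) rhoH ST_smul_rhoH q hb]
  set fib : Place Qb (FN N Qb) → Finset (CosetN N) :=
    fun P => Finset.univ.filter fun q => Φ q = P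
  have hxΦ : ∀ q, (m q) * (Φ q).ord x = 3 := fun q => by
    have hx0 : x ≠ 0 := fun h => by simpa [h] using hΦ q
    rw [← hm q x hx0, hn q, h3]
    norm_num
  -- the order of `x` at a place is at most the number of points giving it
  have hle : ∀ q, (Φ q).ord x ≤ ((fib (Φ q)).card : ℤ) := ord_le_card_fibre N hΦ hxΦ hm hδ
  -- the orders add up to the number of points, so all these bounds are equalities
  obtain ⟨T, hT, -, hsum⟩ := card_zeros_elliptic N embC (a := 0) hz ST_smul_rhoH Nat.prime_three h3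
    (SL2.ST_cube_smul_coset (SL2.neg_one_mem_Gamma0 N)) isPrimitiveRoot_ST
  have hex : ∀ P ∈ T, ∃ q, Φ q = P := fun P hP => by
    obtain ⟨q, m', hm', h'⟩ := exists_eq_pullback hc
      (fun q q' c => by rw [tauPt_algebraMap, tauPt_algebraMap])
      (fun q q' => by rw [map_sub, map_sub, tauPt_jL N embC rhoH q q', tauPt_algebraMap,
        tauPt_algebraMap]) hn0 hn ⟨jNL N Qb, tauPt_injective N embC rhoH⟩
      (card_coset_eq_finrank N embC 0) P ((hT P).mp hP)
    exact ⟨q, huniq q P m' hm' h'⟩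
  have hfib : ∑ P ∈ T, ((fib P).card : ℤ) = psiN N := by
    rw [psiN_eq_card, ← Finset.card_univ, ← Nat.cast_sum,
      Finset.card_eq_sum_card_fiberwise (f := Φ) (s := Finset.univ) (t := T)
        fun q _ => Finset.mem_coe.mpr ((hT _).mpr (hΦ q))]
  have heq := (Finset.sum_eq_sum_iff_of_le fun P hP => by
    obtain ⟨q, rfl⟩ := hex P hP
    exact hle q).mp (hsum.trans hfib.symm)
  have hST : S ∈ T := (hT S).mpr (by rw [hSx]; norm_num)
  obtain ⟨q, hqS⟩ := hex S hST
  have h1 := heq S hST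
  rw [hSx] at h1
  -- a simple zero comes from one point only, which `δ₃` therefore fixes
  have hone : (fib S).card = 1 := by exact_mod_cast h1.symm
  have hfix : δ₃⁻¹ • q = q := Finset.card_le_one.mp hone.le _
    (Finset.mem_filter.mpr ⟨Finset.mem_univ _, (hδ q).trans hqS⟩) _
    (Finset.mem_filter.mpr ⟨Finset.mem_univ _, hqS⟩)
  refine ⟨q, (inv_smul_eq_iff.mp hfix).symm, fun h h0 => ?_⟩
  have hm3 := hxΦ q
  rw [hqS, hSx, mul_one] at hm3
  rw [hm q h h0, hqS, hm3]

/-- The order of an expansion at a point as an analytic order. -/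
theorem order_evPtQ_eq (z : ℍ) (q : CosetN N) {w : W N} (hw : w ≠ 0) :
    (Lvl.evPtQ (Gamma0 N) z q w).order =
      (analyticOrderNatAt (ext (w : ℍ → ℂ)) ((q.out⁻¹ • z : ℍ) : ℂ) : ℤ) := by
  have hne : Lvl.conjHom (Gamma0 N) q w ≠ 0 :=
    (map_ne_zero_iff _ (Lvl.conjHom_injective (Gamma0 N) q)).mpr hw
  show (evPt z (Lvl.conjHom (Gamma0 N) q w)).order = _
  rw [order_evPt_eq_analyticOrderNatAt z hne, analyticOrderNatAt, analyticOrderNatAt]
  exact congrArg (fun a : ℕ∞ => ((a.toNat : ℕ) : ℤ)) (order_compSL w.2.1 q.out⁻¹ z).1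

end Fixed

section Poly

variable (N : ℕ) [NeZero N] {I : Type*} (idx : I → DivIdx N) (P : MvPolynomial I Qb)

/-- A polynomial in the `j (d z)` as a modular function. -/
def polyW : W N :=
  MvPolynomial.eval₂ ((algebraMap ℂ (W N)).comp embC) (fun i => jdW N (idx i)) P

/-- `polyW` is the image in `Lvl.KW (Gamma0 N)` of the polynomial evaluated at the functions
`j (d z)`. -/
theorem toKW_polyW :
    toKW N embC (MvPolynomial.aeval (fun i => jdL Qb (idx i)) P) =
      algebraMap (W N) (Lvl.KW (Gamma0 N)) (polyW N idx P) := by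
  rw [polyW, MvPolynomial.aeval_def, MvPolynomial.eval₂_comp_left, MvPolynomial.eval₂_comp_left]
  congr 1
  · exact RingHom.ext fun c => toKW_algebraMap N embC c
  · exact funext fun i => toKW_jdL embC (idx i)

/-- The values of `polyW` are the values of the polynomial at the numbers `j (d z)`. -/
theorem polyW_apply (z : ℍ) :
    (polyW N idx P : ℍ → ℂ) z =
      MvPolynomial.eval₂ embC (fun i => jN (idx i : ℕ) z) P := by
  let ev : W N →+* ℂ := (Pi.evalRingHom (fun _ : ℍ => ℂ) z).comp (W N).val.toRingHom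
  change ev _ = _
  rw [polyW, MvPolynomial.eval₂_comp_left]
  rfl

end Poly

variable (M l : ℕ) [NeZero M] [NeZero l] [FF.IsFunctionField Qb (FN (M * l) Qb)]

/-- **At a simple zero of `j` of level `M l` the two degeneracy maps agree on orders.** -/
theorem ord_alpha_eq_beta (hl : l.Prime) {S : Place Qb (FN (M * l) Qb)}
    (hS : S.ord (jL (M * l) Qb) = 1) (f : FN M Qb) :
    S.ord (heckeAlphaBar Qb M l f) = S.ord (heckeBetaBar Qb M l f) := by
  obtain ⟨q, hq, hord⟩ := exists_fixed_of_ord_eq_one (M * l) hS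
  set z : ℍ := q.out⁻¹ • rhoH with hzdef
  -- the fixed point
  set η : SL(2, ℤ) := q.out⁻¹ * δ₃ * q.out with hη
  have hηmem : η ∈ Gamma0 (M * l) := by
    have h := hq
    rw [← QuotientGroup.out_eq' q, MulAction.Quotient.smul_mk, smul_eq_mul, eq_comm,
      QuotientGroup.eq] at h
    rwa [hη, mul_assoc]
  have hηtr : η 0 0 + η 1 1 = 1 := by
    have h1 : Matrix.trace (η : Matrix (Fin 2) (Fin 2) ℤ) =
        Matrix.trace (δ₃ : Matrix (Fin 2) (Fin 2) ℤ) := by
      rw [hη, Matrix.SpecialLinearGroup.coe_mul, Matrix.trace_mul_comm,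
        ← Matrix.SpecialLinearGroup.coe_mul, ← mul_assoc, mul_inv_cancel, one_mul]
    rw [Matrix.trace_fin_two, Matrix.trace_fin_two] at h1
    rw [h1]
    simp [ModularGroup.coe_S, ModularGroup.coe_T, Matrix.SpecialLinearGroup.coe_mul]
  have hηz : η • z = z := by
    rw [hη, hzdef, mul_smul, mul_smul, smul_inv_smul, ST_smul_rhoH]
  obtain ⟨γ, hγ, hγz⟩ := exists_smul_eq_scale M l hl hηmem hηtr hηz
  -- polynomials
  have hpoly : ∀ P : MvPolynomial (DivIdx M) Qb,
      MvPolynomial.aeval (fun d => jdL Qb d) P ≠ 0 →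
      S.ord (heckeAlphaBar Qb M l (MvPolynomial.aeval (fun d => jdL Qb d) P)) =
        S.ord (heckeBetaBar Qb M l (MvPolynomial.aeval (fun d => jdL Qb d) P)) := by
    intro P hP
    set a := polyW M (fun d => d) P
    set wα := polyW (M * l) (idxAlpha M l) P
    set wβ := polyW (M * l) (idxBeta M l) P
    have hxα : heckeAlphaBar Qb M l (MvPolynomial.aeval (fun d => jdL Qb d) P) =
        MvPolynomial.aeval (fun d => jdL Qb (idxAlpha M l d)) P :=
      (MvPolynomial.comp_aeval_apply _ _ P).trans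
        (congrArg (fun g => MvPolynomial.aeval g P) (funext fun d => alpha_jdL M l Qb d))
    have hxβ : heckeBetaBar Qb M l (MvPolynomial.aeval (fun d => jdL Qb d) P) =
        MvPolynomial.aeval (fun d => jdL Qb (idxBeta M l d)) P :=
      (MvPolynomial.comp_aeval_apply _ _ P).trans
        (congrArg (fun g => MvPolynomial.aeval g P) (funext fun d => beta_jdL M l Qb d))
    have hfα : (wα : ℍ → ℂ) = (a : ℍ → ℂ) := funext fun w => by
      rw [polyW_apply, polyW_apply]
      rfl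
    have hfβ : (wβ : ℍ → ℂ) = (a : ℍ → ℂ) ∘ affH (posN l) 0 := funext fun w => by
      rw [Function.comp_apply, polyW_apply, polyW_apply]
      refine congrArg (fun g => MvPolynomial.eval₂ embC g P) (funext fun d => ?_)
      have : NeZero ((d : ℕ) * l) := ⟨mul_ne_zero (NeZero.ne _) (NeZero.ne l)⟩
      refine ((jN_eq (d : ℕ) _ (affH (posN ((d : ℕ) * l)) 0 w) ?_).trans rfl).symm
      simp [coe_affH, posN]
      ring
    have hordw : ∀ (x : FN (M * l) Qb) (w : W (M * l)),
        toKW (M * l) embC x = algebraMap (W (M * l)) (Lvl.KW (Gamma0 (M * l))) w → x ≠ 0 →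
        3 * S.ord x = (analyticOrderNatAt (ext (w : ℍ → ℂ)) (z : ℂ) : ℤ) := by
      intro x w hw hx
      have hw0 : w ≠ 0 := fun h =>
        hx ((map_eq_zero (toKW (M * l) embC)).mp (by rw [hw, h, map_zero]))
      rw [← hord x hx, ordT, tauPt, tau_of_toKW _ _ _ _ hw, order_evPtQ_eq _ _ _ hw0]
    have h1 := hordw _ wα (hxα ▸ toKW_polyW (M * l) (idxAlpha M l) P) ((map_ne_zero _).mpr hP)
    have h2 := hordw _ wβ (hxβ ▸ toKW_polyW (M * l) (idxBeta M l) P) ((map_ne_zero _).mpr hP)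
    rw [hfα] at h1
    rw [hfβ, analyticOrderNatAt, analyticOrderAt_scale l a.2.1 (a.2.2.1 γ hγ) hγz,
      ← analyticOrderNatAt] at h2
    omega
  rcases eq_or_ne f 0 with rfl | hf
  · rw [map_zero, map_zero]
  -- every function is a quotient of two polynomials in the `j (d z)`
  obtain ⟨P, hP, Q, hQ, hQ0, hfQ⟩ := BAD.X0.exists_div_jdL M f
  rw [Algebra.adjoin_range_eq_range_aeval, AlgHom.mem_range] at hP hQ
  obtain ⟨P₀, rfl⟩ := hP
  obtain ⟨Q₀, rfl⟩ := hQ
  have hP0 : MvPolynomial.aeval (fun d => jdL Qb d) P₀ ≠ 0 := hfQ ▸ mul_ne_zero hf hQ0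
  have e1 := hpoly P₀ hP0
  rw [← hfQ, map_mul, map_mul, S.ord_mul ((map_ne_zero _).mpr hf) ((map_ne_zero _).mpr hQ0),
    S.ord_mul ((map_ne_zero _).mpr hf) ((map_ne_zero _).mpr hQ0), hpoly Q₀ hQ0] at e1
  linarith

end Fermat.MZ.Geo

end
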