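import Fermat.Agent.MZ.GeoPlaces
import Fermat.Agent.MZ.GeoElliptic

/-!
# The Hecke correspondence at a simple zero of `j`

Modulo three `T_l` multiplies a simple zero `Q` of `j` by `l + 1`: a place over `Q` of index prime
to three has index one and maps back to `Q`.
-/

set_option autoImplicit false

attribute [local instance 10000] SubalgebraClass.toAlgebra HahnSeries.powerSeriesAlgebra

noncomputable section

open ModularCurve AlgebraicCurve

namespace Fermat.MZ.Geo

open Fermat.FF Fermat.MC Fermat.JAC Fermat.RED Fermat.BAD.X0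

local notation "Qb" => AlgebraicClosure ℚ

variable (M l : ℕ) [NeZero M] [NeZero l]
  [FF.IsFunctionField Qb (FN M Qb)] [FF.IsFunctionField Qb (FN (M * l) Qb)]

omit [IsFunctionField Qb ↥(FN M Qb)] [IsFunctionField Qb ↥(FN (M * l) Qb)] in
/-- The second degeneracy map from level `M l` to level `M` has degree `l + 1`. -/
theorem finrankAlong_beta_bar (hl : l.Prime) (hlM : ¬ l ∣ M) :
    finrankAlong Qb (heckeBetaBar Qb M l) = l + 1 := by
  rw [← CongX0.finrankAlong_alpha_bar M l hl hlM]
  exact @Algebra.finrank_eq_of_equiv_equiv _ _ _ _ (algebraAlong (heckeBetaBar Qb M l))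
    _ _ _ _ (algebraAlong (heckeAlphaBar Qb M l)) (RingEquiv.refl _)
    (alW M l hl hlM).toRingEquiv (RingHom.ext fun x => (alW_beta M l hl hlM x).symm)

omit [IsFunctionField Qb ↥(FN M Qb)] in
/-- The order after an Atkin–Lehner automorphism is the order at another place. -/
theorem ord_alW (hl : l.Prime) (hlM : ¬ l ∣ M) (R : Place Qb (FN (M * l) Qb)) :
    ∃ S : Place Qb (FN (M * l) Qb), ∀ x, R.ord (alW M l hl hlM x) = S.ord x := by
  set W := (alW M l hl hlM).toAlgHom
  refine ⟨below W R, fun x => ?_⟩
  obtain ⟨t, -, ht⟩ := exists_ord_eq_one R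
  have h : R.ord (W (alW M l hl hlM t)) = 1 := (congrArg R.ord (alW_alW M l hl hlM t)).trans ht
  rw [JAC.ord_below] at h
  have he : (R.ramificationIndexAlong W : ℤ) = 1 := by
    have := Int.le_of_dvd one_pos (Dvd.intro _ h)
    have := JAC.ramificationIndexAlong_pos W R
    omega
  change R.ord (W x) = _
  rw [JAC.ord_below, he, one_mul]

/-- **`T_l [Q] = (l + 1) [Q]` modulo three at a simple zero of `j`.** -/
theorem dvd_hecke_single (hl : l.Prime) (hlM : ¬ l ∣ M) {Q : Place Qb (FN M Qb)}
    (hQ : Q.ord (jL M Qb) = 1) (v : Place Qb (FN M Qb)) :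
    (3 : ℤ) ∣ (pushDiv (heckeAlphaBar Qb M l) (pullDiv (heckeBetaBar Qb M l) (Finsupp.single Q 1)) -
      ((l : ℤ) + 1) • Finsupp.single Q (1 : ℤ) : Divisor Qb (FN M Qb)) v := by
  classical
  set α := heckeAlphaBar Qb M l
  set β := heckeBetaBar Qb M l
  set e := fun R : Place Qb (FN (M * l) Qb) => (R.ramificationIndexAlong β : ℤ) with he
  have hdeg : ∑ R ∈ above β Q, e R = (l : ℤ) + 1 := by
    -- the degree of the pullback is `l + 1`
    have h := degree_pullDiv β (Finsupp.single Q (1 : ℤ))
    rw [pullDiv_single, map_sum, finrankAlong_beta_bar M l hl hlM] at h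
    simpa [Divisor.degree_single, FF.deg_eq_one, he] using h
  rw [pullDiv_single, map_sum, ← hdeg, Finset.sum_smul, ← Finset.sum_sub_distrib,
    Finsupp.finsetSum_apply]
  refine Finset.dvd_sum fun R hR => ?_
  rw [pushDiv_single, one_mul, Finsupp.sub_apply, Finsupp.smul_apply, Finsupp.single_apply,
    Finsupp.single_apply, smul_eq_mul, mul_ite, mul_one, mul_zero]
  have hbelow : below β R = Q := (mem_above β).mp hR
  obtain ⟨S, hS⟩ := ord_alW M l hl hlM R
  have heS : e R = S.ord (jL (M * l) Qb) := by
    -- a place `R` over `Q` has index one or three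
    have h1 : R.ord (β (jL M Qb)) = e R := by rw [JAC.ord_below, hbelow, hQ, mul_one]
    rw [← h1, ← alW_alpha M l hl hlM, hS]
    exact congrArg S.ord (Subtype.ext (coe_heckeAlphaBar M l _))
  have hpos : 0 < e R := by
    have := JAC.ramificationIndexAlong_pos β R
    change (0 : ℤ) < (R.ramificationIndexAlong β : ℤ)
    exact_mod_cast this
  rcases ord_jL_one_or_three (M := M * l) (heS ▸ hpos) with h1 | h3
  · have hkey : ∀ f : FN M Qb, R.ord (β f) = R.ord (α f) := fun f => by
      rw [← alW_alpha M l hl hlM f, hS, ord_alpha_eq_beta M l hl h1, ← hS, alW_beta]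
    -- of index one: both degeneracies send it to `Q`
    have hαR : below α R = Q := by
      rw [← hbelow]
      refine place_eq_of_le fun f hf => ?_
      rw [mem_iff] at hf ⊢
      refine hf.imp_right fun hf => ?_
      have h := hkey f
      rw [JAC.ord_below, JAC.ord_below] at h
      have e1 := JAC.ramificationIndexAlong_pos β R
      have h0 : (0 : ℤ) ≤ (R.ramificationIndexAlong β : ℤ) * (below β R).ord f :=
        h ▸ mul_nonneg (Int.natCast_nonneg _) hf
      exact nonneg_of_mul_nonneg_right h0 (by exact_mod_cast e1)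
    rw [hαR]
    simp [he]
  · have h3e : (3 : ℤ) ∣ e R := by rw [heS, h3]
    refine dvd_sub ?_ ?_ <;> split_ifs <;> first | exact h3e | exact dvd_zero _

end Fermat.MZ.Geo

end
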