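import Fermat.Agent.MZ.GeoTheta
import Fermat.Agent.CAR.ThetaSS
import Fermat.Agent.RED.Reduction.X0

/-!
# The places where a pullback with divisible divisor can fail to be divisible

In characteristic three the degeneracy map from a level `M r`, `r = 11` modulo `12`, to level `M`
has index prime to `3` over the cusps and over `j = a ≠ 0`; so only zeros of `j` of order at most
two remain, and each of these is the reduction of a simple zero of `j` in characteristic zero.
-/

set_option autoImplicit false

attribute [local instance 10000] SubalgebraClass.toAlgebra HahnSeries.powerSeriesAlgebra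

noncomputable section

open ModularCurve AlgebraicCurve

namespace Fermat.MZ.Geo

open Fermat.FF Fermat.MC Fermat.JAC Fermat.JAC.X0 Fermat.RED Fermat.RED.Model Fermat.BAD.X0

local notation "Qb" => AlgebraicClosure ℚ

section Cusp

variable {k : Type*} [Field k] [IsAlgClosed k] {N : ℕ} [NeZero N]
  [FF.IsFunctionField k (FX k N)]

open Fermat.RED.Cusps in
/-- Every pole of `j` is the place of a branch. -/
theorem exists_place_eq (hN : (N : k) ≠ 0) {Q : Place k (FX k N)} (hQ : Q.ord (jX k N) < 0) :
    ∃ (ψ : FX k N →+* LaurentSeries k) (h : IsBranchHom ψ), h.place = Q := by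
  classical
  by_contra hne
  push Not at hne
  obtain ⟨ξ, hξ⟩ := exists_isPrimitiveRoot_unit k N hN
  set T : Finset (Place k (FX k N)) := (FF.finite_setOf_ord_ne_zero (K := k) (jX k N)).toFinset
  have hT : ∀ v : Place k (FX k N), v.ord (jX k N) < 0 → v ∈ T := fun v hv =>
    (FF.finite_setOf_ord_ne_zero (K := k) (jX k N)).mem_toFinset.mpr hv.ne
  obtain ⟨u, hu0, hu⟩ := FF.exists_ord_eq Q (-1)
  obtain ⟨f, hf⟩ := FF.exists_approx T (fun v => if v = Q then u else 0) 0
  have hfQ : ¬ FF.OrdGE Q f 0 := fun h => by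
    have h' := hf Q (hT Q hQ)
    rw [if_pos rfl] at h'
    have := h.sub h'
    rw [sub_sub_cancel] at this
    have := this.le_ord hu0
    omega
  refine hfQ (ordGE_of_forall_branch hξ hN (fun φ hφ => (hφ.ordGE_place f).mp ?_) hQ)
  have := hf _ (hT _ hφ.ord_jX_neg)
  rwa [if_neg (hne φ hφ), sub_zero] at this

/-- **The order of a pole of `j` divides the level.** -/
theorem ord_jX_dvd_of_pole (hN : (N : k) ≠ 0) {Q : Place k (FX k N)} (hQ : Q.ord (jX k N) < 0) :
    Q.ord (jX k N) ∣ (N : ℤ) := by
  obtain ⟨ψ, h, rfl⟩ := exists_place_eq hN hQ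
  have hjord : ordT ψ (jX k N) = -(N : ℤ) := by rw [ordT, h.jX, order_jb]
  have hc : ∀ c : k, c ≠ 0 → ordT ψ (algebraMap k (FX k N) c) = 0 := fun c hc => by
    rw [ordT, h.const, algebraMap_laurentSeries_eq_single, HahnSeries.order_single hc]
  obtain ⟨P, -, m, hm0, hm⟩ := MC.exists_pullback ψ (x := (jX k N)⁻¹) hc (by
    rw [ordT_inv, hjord, neg_neg]
    exact_mod_cast NeZero.pos N)
  have hP : P = h.place := place_eq_of_le fun f hf => by
    rw [mem_iff] at hf
    refine (FF.mem_iff_ordGE _).mpr ((h.ordGE_place f).mpr ?_)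
    change ψ f ∈ regSub k
    rw [mem_regSub, map_eq_zero]
    rcases hf with hf | hf
    · exact Or.inl hf
    rcases eq_or_ne f 0 with h0 | h0
    · exact Or.inl h0
    exact Or.inr (by
      change 0 ≤ ordT ψ f
      rw [hm f h0]
      exact mul_nonneg hm0.le hf)
  have h1 := hm (jX k N) (Model.jX_ne_zero (L := k) N)
  rw [hP, hjord] at h1
  exact ⟨-m, by linarith⟩

end Cusp

section Ram

variable {M r : ℕ} [NeZero M] [NeZero (M * r)] {A : ValuationSubring (AlgebraicClosure ℚ)}
  [IsAlgClosed (IsLocalRing.ResidueField A)] [CharP (IsLocalRing.ResidueField A) 3]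
  [FF.IsFunctionField (IsLocalRing.ResidueField A) (FX (IsLocalRing.ResidueField A) M)]
  [FF.IsFunctionField (IsLocalRing.ResidueField A) (FX (IsLocalRing.ResidueField A) (M * r))]

local notation "kA" => IsLocalRing.ResidueField A

/-- In characteristic three, at a level `N` prime to three without elliptic points, every zero of
`j` has order six. -/
theorem ord_jk_eq_six {N : ℕ} [NeZero N] [FF.IsFunctionField kA (FX kA N)]
    (hA : A.LiesOverPrime 3) (hN : ¬ 3 ∣ N) (hne : NoElliptic N) {v : Place kA (FX kA N)}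
    (hv : 0 < v.ord (jX kA N)) : v.ord (jX kA N) = 6 := by
  have : Fact (Nat.Prime 3) := ⟨Nat.prime_three⟩
  have : FF.IsFunctionField Qb (FN (N * 3) Qb) := MC.isFunctionField_FN (N * 3) embC
  have : FF.IsFunctionField Qb (FN N Qb) := MC.isFunctionField_FN N embC
  have he := CAR.hbar_eq_jk_pow N 3 Nat.prime_three hN hA (by norm_num)
  have hs : v ∈ SS N 3 Nat.prime_three hN hA := (mem_SS N 3 Nat.prime_three hN hA).mpr
    ⟨ordGE_iff.mpr (Or.inr hv.le), by rw [he, FF.ord_pow]; push_cast; omega⟩
  have h := CAR.ord_hbar_eq_twelve N 3 Nat.prime_three hN hA hne hs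
  rw [he, FF.ord_pow] at h
  push_cast at h
  omega

/-- **Only the zeros of `j` of order at most two can be bad.** -/
theorem dvd_ord_or_ord_jk_le (hA : A.LiesOverPrime 3) (hM : ¬ 3 ∣ M) (hr : r.Prime)
    (h12 : r % 12 = 11) {H : FX kA M}
    (hup : ∀ v : Place kA (FX kA (M * r)), (3 : ℤ) ∣
      v.ord (IntermediateField.inclusion (full_degeneracyC_le kA (Dvd.intro r rfl)) H))
    (P : Place kA (FX kA M)) :
    (3 : ℤ) ∣ P.ord H ∨ (0 < P.ord (jX kA M) ∧ P.ord (jX kA M) ≤ 2) := by
  have hr3 : ¬ 3 ∣ r := fun h => by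
    have := (Nat.prime_dvd_prime_iff_eq Nat.prime_three hr).mp h
    omega
  have hMr : ¬ 3 ∣ M * r := fun h => (Nat.prime_three.dvd_mul.mp h).elim hM hr3
  set φ := IntermediateField.inclusion (full_degeneracyC_le kA (N := M) (M := M * r)
    (Dvd.intro r rfl))
  have hφj : φ (jX kA M) = jX kA (M * r) := Subtype.ext rfl
  obtain ⟨v, rfl⟩ := JAC.below_surjective φ P
  set P := below φ v
  set e := v.ramificationIndexAlong φ with he
  have hord : ∀ f, v.ord (φ f) = (e : ℤ) * P.ord f := JAC.ord_below φ v
  have he0 : 0 < e := JAC.ramificationIndexAlong_pos φ v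
  have h3 := hup v
  rw [hord] at h3
  have h3p : Prime (3 : ℤ) := Nat.prime_iff_prime_int.mp Nat.prime_three
  have hfin : ¬ (3 : ℤ) ∣ e → (3 : ℤ) ∣ P.ord H := fun hne =>
    (h3p.dvd_mul.mp h3).resolve_left hne
  have hM0 := natCast_ne_zero_residue A Nat.prime_three hA hMr
  rcases lt_trichotomy (P.ord (jX kA M)) 0 with hneg | h0 | hpos
  -- over a pole of `j` the ramification index divides the level
  · refine Or.inl (hfin fun hd => hMr ?_)
    have hneg' : v.ord (jX kA (M * r)) < 0 := by
      rw [← hφj, hord]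
      exact mul_neg_of_pos_of_neg (by exact_mod_cast he0) hneg
    have h1 := ord_jX_dvd_of_pole hM0 hneg'
    rw [← hφj, hord] at h1
    have h2 : (3 : ℤ) ∣ ((M * r : ℕ) : ℤ) := hd.trans ((dvd_mul_right _ _).trans h1)
    exact_mod_cast h2
  · refine Or.inl (hfin fun hd => ?_)
    -- over `j = a ≠ 0` both sides have a uniformiser `j - a`, so the index is one
    have hge : OrdGE P (jX kA M) 0 := ordGE_iff.mpr (Or.inr h0.ge)
    set a := evalAt P (jX kA M)
    have hne := jX_sub_algebraMap_ne_zero M a
    have h1 : (1 : ℤ) ≤ P.ord (jX kA M - algebraMap kA (FX kA M) a) :=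
      (evalAt_spec hge).le_ord hne
    have ha : a ≠ 0 := fun ha => by
      rw [ha, map_zero, sub_zero] at h1
      omega
    have hP1 := ord_jk_sub_eq_one M hA hM hge ha (by omega)
    have hv : v.ord (φ (jX kA M - algebraMap kA (FX kA M) a)) = e := by rw [hord, hP1, mul_one]
    rw [map_sub, hφj, AlgHom.commutes] at hv
    have hvge : OrdGE v (jX kA (M * r)) 0 := hφj ▸ JAC.ordGE_comp φ hge
    have hv1 := ord_jk_sub_eq_one (M * r) hA hMr hvge ha (by rw [hv]; exact_mod_cast he0)
    rw [hv] at hv1
    omega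
  · rw [or_iff_not_imp_left]
    intro hH
    refine ⟨hpos, ?_⟩
    -- over a zero of `j` three divides the index, and the order upstairs is six
    obtain ⟨e', he'⟩ := not_not.mp (mt hfin hH)
    have h6 : v.ord (jX kA (M * r)) = 6 := by
      refine ord_jk_eq_six hA hMr (NoElliptic.of_prime_dvd hr h12 (dvd_mul_left r M)) ?_
      rw [← hφj, hord]
      exact mul_pos (by exact_mod_cast he0) hpos
    rw [← hφj, hord, he'] at h6
    have he'1 : 1 ≤ e' := by omega
    nlinarith

end Ram

section Lift

variable {M : ℕ} [NeZero M] [FF.IsFunctionField Qb (FN M Qb)]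

/-- In characteristic zero a zero of `j` has order one or three. -/
theorem ord_jL_one_or_three {Q : Place Qb (FN M Qb)} (hQ : 0 < Q.ord (jL M Qb)) :
    Q.ord (jL M Qb) = 1 ∨ Q.ord (jL M Qb) = 3 := by
  have h := ord_jL_sub_dvd M (a := 0) (z := rhoH) (by rw [jA_rhoH, map_zero]) (P := Q)
    (by rwa [map_zero, sub_zero])
  rw [map_zero, sub_zero, multJ, if_pos jA_rhoH] at h
  push_cast at h
  have hle := Int.le_of_dvd (by norm_num) h
  generalize Q.ord (jL M Qb) = n at h hle hQ ⊢
  interval_cases n <;> omega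

variable {A : ValuationSubring (AlgebraicClosure ℚ)} [IsAlgClosed (IsLocalRing.ResidueField A)]
  [FF.IsFunctionField (IsLocalRing.ResidueField A) (FX (IsLocalRing.ResidueField A) M)]

local notation "kA" => IsLocalRing.ResidueField A

/-- **A zero of `j` of order at most two is the reduction of a simple zero.** -/
theorem exists_ord_one_of_reduction (hM : (M : kA) ≠ 0)
    {ρ : Place Qb (modularFunctionFieldBar M) → Place kA (modularFunctionFieldFullC kA M)}
    (hρ : IsSeriesReduction A (IsLocalRing.residue A) (modularFunctionFieldBar M)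
      (modularFunctionFieldFullC kA M) ρ)
    {P : Place kA (FX kA M)} (h1 : 0 < P.ord (jX kA M)) (h2 : P.ord (jX kA M) ≤ 2) :
    ∃ Q : Place Qb (FN M Qb), ρ Q = P ∧ Q.ord (jL M Qb) = 1 := by
  classical
  have : IsAlgClosed Qb := inferInstance
  set Z := Finsupp.mapDomain ρ (zeroDiv Qb (jL M Qb)) with hZ
  have hjL : coeffMap A.subtype (jqModC A) = (jL M Qb : LaurentSeries Qb) := by
    rw [coe_jL, coeffMap_subtype_jqModC]
  have hjk : coeffMap (IsLocalRing.residue A) (jqModC A) = jqModC kA :=
    coeffMap_jqModC (IsLocalRing.residue A)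
  have hjk0 : coeffMap (IsLocalRing.residue A) (jqModC A) ≠ 0 := fun h0 =>
    Model.jX_ne_zero (L := kA) M (Subtype.ext (hjk.symm.trans h0))
  have hdiv : ∀ v : Place kA (FX kA M),
      Finsupp.mapDomain ρ (divOf Qb (jL M Qb)) v = v.ord (jX kA M) := fun v => by
    have h := hρ.compat (jqModC A) (by rw [hjL]; exact (jL M Qb).2)
      (by rw [hjk]; exact (jX kA M).2) hjk0
      (divOf Qb (jL M Qb))
      (fun Q => (divOf_apply _ Q).trans (congrArg Q.ord (Subtype.ext hjL.symm))) v
    -- zero divisors reduce to zero divisors, as the degrees agree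
    rw [h]
    exact congrArg v.ord (Subtype.ext hjk)
  have hZv : Z = zeroDiv kA (jX kA M) := by
    refine sub_eq_zero.mp (FF.eq_zero_of_nonneg_of_degree (Finsupp.le_def.mpr fun v => ?_) ?_)
    · have h := hdiv v
      rw [divOf_eq_sub, Finsupp.mapDomain_sub, Finsupp.sub_apply, ← hZ] at h
      have hp := Finsupp.le_def.mp
          (Finsupp.mapDomain_nonneg (f := ρ) (g := poleDiv Qb (jL M Qb)) fun a => by simp) v
      have hz := Finsupp.le_def.mp
          (Finsupp.mapDomain_nonneg (f := ρ) (g := zeroDiv Qb (jL M Qb)) fun a => by simp) v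
      rw [Finsupp.zero_apply] at hp
      rw [Finsupp.zero_apply, ← hZ] at hz
      rw [Finsupp.sub_apply, zeroDiv_apply, Finsupp.zero_apply]
      omega
    · rw [map_sub, hZ, hρ.degree_mapDomain, degree_zeroDiv (transcendental_jL M),
        degree_zeroDiv Cusps.transcendental_jX, (finrank_FN M embC).1, psiN_eq_dedekindPsi,
        Cusps.finrank_jX hM, sub_self]
  by_contra hne
  -- if all zeros over `P` were triple then three would divide the order
  push Not at hne
  have h3 : (3 : ℤ) ∣ Z P := by
    rw [hZ, Finsupp.mapDomain, Finsupp.sum_apply]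
    refine Finset.dvd_sum fun Q hQ => ?_
    dsimp only
    rw [Finsupp.single_apply]
    split_ifs with hQP
    · rw [zeroDiv_apply]
      rw [Finsupp.mem_support_iff, zeroDiv_apply] at hQ
      have hpos : 0 < Q.ord (jL M Qb) := by omega
      rw [max_eq_left hpos.le]
      rcases ord_jL_one_or_three hpos with h | h
      · exact absurd h (hne Q hQP)
      · rw [h]
    · exact dvd_zero _
  rw [hZv, zeroDiv_apply, max_eq_left h1.le] at h3
  have := Int.le_of_dvd h1 h3
  omega

end Lift

end Fermat.MZ.Geo

end
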