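import Fermat.Agent.CAR.ThetaOrd
import Fermat.Agent.BAD.X0.Model

/-!
# Ordinary points in characteristic three

For a function `x` regular off the cusps with `dx = c dj` the function `c ^ 6 j ^ 7` is regular off
the cusps: it is the reduction of `(θ g) ^ 6 / Δ` for a lift `g` of `x`.  So `j - a` is a
uniformiser at every point with `j = a ≠ 0`, at every level prime to `3`.
-/

set_option autoImplicit false
set_option linter.unusedSectionVars false

noncomputable section

open ModularCurve AlgebraicCurve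

namespace Fermat.MZ.Geo

-- both lead to searches that take seconds to fail on subfields of Laurent series
attribute [-instance] IsLocalRing.ResidueField.algebraOfIsIntegral IntermediateField.algebra'

open Fermat.FF Fermat.MC Fermat.JAC.X0 Fermat.RED Fermat.RED.Model Fermat.BAD.X0 Fermat.CAR

local notation "Qb" => AlgebraicClosure ℚ

section Transport

variable {K L : Type*} [Field K] [Field L] [Algebra K L] {S T : IntermediateField K L}

/-- A bound on the orders of zeros of an element transfers along an equality of intermediate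
fields. -/
theorem forall_ord_le_of_eq (h : S = T) {xS : S} {xT : T} (e : (xS : L) = xT) {n : ℤ}
    (H : ∀ P : Place K T, 0 < P.ord xT → P.ord xT ≤ n) :
    ∀ P : Place K S, 0 < P.ord xS → P.ord xS ≤ n := by
  subst h
  obtain rfl : xS = xT := Subtype.ext e
  exact H

/-- Membership in the integral closure transfers along an equality of intermediate fields. -/
theorem mem_intClosure_of_eq (h : S = T) {jS zS : S} {jT zT : T} (ej : (jS : L) = jT)
    (ez : (zS : L) = zT) (H : zT ∈ intClosure K jT) : zS ∈ intClosure K jS := by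
  subst h
  obtain rfl : jS = jT := Subtype.ext ej
  obtain rfl : zS = zT := Subtype.ext ez
  exact H

end Transport

section Value

variable (N : ℕ) [NeZero N] [FF.IsFunctionField Qb (FN N Qb)]

/-- In characteristic zero the ramification above `j = a` divides the multiplicity of `a`. -/
theorem ord_jL_sub_dvd {a : Qb} {z : UpperHalfPlane} (hz : jA z = embC a) {P : Place Qb (FN N Qb)}
    (hP : 0 < P.ord (jL N Qb - algebraMap Qb (FN N Qb) a)) :
    P.ord (jL N Qb - algebraMap Qb (FN N Qb) a) ∣ (multJ z : ℤ) := by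
  classical
  set x := jL N Qb - algebraMap Qb (FN N Qb) a
  obtain ⟨c, m, -, hall⟩ := exists_eq_pullback (τ := tauPt N embC z) (x := x)
    (fun q c hc => ordT_tauPt_algebraMap N embC z q hc)
    (fun q q' c => by rw [tauPt_algebraMap, tauPt_algebraMap])
    (fun q q' => by
      rw [map_sub, map_sub, tauPt_jL N embC z q q', tauPt_algebraMap, tauPt_algebraMap])
    (n := (multJ z : ℤ)) (by exact_mod_cast multJ_pos z) (ordT_tauPt_jL_sub N embC hz)
    ⟨jNL N Qb, tauPt_injective N embC z⟩ (card_coset_eq_finrank N embC a) P hP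
  have hx0 : x ≠ 0 := fun h => by
    rw [h, Place.ord_zero] at hP
    exact lt_irrefl _ hP
  exact ⟨m, ((ordT_tauPt_jL_sub N embC hz c).symm.trans (hall x hx0)).trans (mul_comm _ _)⟩

end Value

section Series

variable {k : Type*} [Field k] (N : ℕ) [NeZero N]

/-- `c ^ 6 j ^ 4 (j - 1728) ^ 3` has the expansion `(θ g) ^ 6 / Δ`. -/
theorem coe_theta_poly {c g : FX k N}
    (hθ : thetaS (g : LaurentSeries k) = (c : LaurentSeries k) * thetaS (jqModC k)) :
    ((c ^ 6 * jX k N ^ 4 * (jX k N - 1728) ^ 3 : FX k N) : LaurentSeries k) =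
      thetaS (g : LaurentSeries k) ^ 6 * deltaSeriesInv k := by
  rw [hθ, mul_pow, thetaS_jq_pow]
  change (c : LaurentSeries k) ^ 6 * jqModC k ^ 4 * (jqModC k - 1728) ^ 3 = _
  linear_combination -((c : LaurentSeries k) ^ 6 * jqModC k ^ 4 * (jqModC k - 1728) ^ 3) *
    (deltaSeries_mul_inv (R := k))

/-- `j - a` is nonzero in the function field of level `N`, as `j` is transcendental. -/
theorem jX_sub_algebraMap_ne_zero (a : k) : jX k N - algebraMap k (FX k N) a ≠ 0 := fun h =>
  Cusps.transcendental_jX (k := k) (M := N) (sub_eq_zero.mp h ▸ isAlgebraic_algebraMap _)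

end Series

section CharZero

variable (N : ℕ) [NeZero N] [FF.IsFunctionField Qb (FX Qb N)]

/-- The lift of `c ^ 6 j ^ 7` is regular off the cusps. -/
theorem theta_poly_mem_intClosure {c g : FX Qb N} (hg : g ∈ intClosure Qb (jX Qb N))
    (hD : KaehlerDifferential.D Qb (FX Qb N) g =
      c • KaehlerDifferential.D Qb (FX Qb N) (jX Qb N)) :
    c ^ 6 * jX Qb N ^ 4 * (jX Qb N - 1728) ^ 3 ∈ intClosure Qb (jX Qb N) := by
  classical
  have htr : Transcendental Qb (jX Qb N) := Cusps.transcendental_jX
  refine mem_intClosure_iff.mpr fun P hP => ?_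
  have hPg := mem_intClosure_iff.mp hg P hP
  rcases eq_or_ne c 0 with hc | hc
  · rw [hc, zero_pow (by norm_num : (6 : ℕ) ≠ 0), zero_mul, zero_mul]
    exact FF.ordGE_zero _ _
  set a := evalAt P (jX Qb N)
  set G := jX Qb N - algebraMap Qb (FX Qb N) a with hG
  have hG0 : G ≠ 0 := jX_sub_algebraMap_ne_zero N a
  have he : 0 < P.ord G := by
    have : (1 : ℤ) ≤ P.ord G := (evalAt_spec hP).le_ord hG0
    omega
  -- the differential of `j`
  have hdG := ordDifferential_D_eq P (f := G) (Int.cast_ne_zero.mpr he.ne')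
  rw [hG, D_sub_algebraMap, ← hG] at hdG
  have hΩ : KaehlerDifferential.D Qb (FX Qb N) (jX Qb N) ≠ 0 :=
    D_ne_zero_of_separable htr (separable_of_charZero htr)
  have hdg := ordDifferential_D_nonneg P hPg
  rw [hD, ordDifferential_smul P hc hΩ, hdG] at hdg
  -- the ramification
  obtain ⟨z, hz⟩ := exists_jA_eq (embC a)
  have hle : P.ord G ≤ (multJ z : ℤ) := by
    have : FF.IsFunctionField Qb (FN N Qb) := MC.isFunctionField_FN N embC
    refine forall_ord_le_of_eq (fullC_eq_baseChange Qb N).symm (xS := G)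
      (xT := jL N Qb - algebraMap Qb (FN N Qb) a)
      (by rw [hG, AddSubgroupClass.coe_sub, AddSubgroupClass.coe_sub, coe_jL]; rfl)
      (fun R hR => ?_) P he
    exact Int.le_of_dvd (by exact_mod_cast multJ_pos z) (ord_jL_sub_dvd N hz hR)
  have hshift : ∀ b : Qb, a ≠ b → P.ord (jX Qb N - algebraMap Qb (FX Qb N) b) = 0 := fun b hb => by
    have h := ord_sub_algebraMap_eq_zero (f := G) (c := b - a) he (sub_ne_zero.mpr (Ne.symm hb))
    rwa [map_sub, hG, sub_sub_sub_cancel_right] at h
  have hj0 : a ≠ 0 → P.ord (jX Qb N) = 0 := fun h => by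
    have := hshift 0 h
    rwa [map_zero, sub_zero] at this
  have hj1 : a ≠ 1728 → P.ord (jX Qb N - 1728) = 0 := fun h => by
    have := hshift 1728 h
    rwa [map_ofNat] at this
  have hne : jX Qb N - 1728 ≠ 0 := by
    have := jX_sub_algebraMap_ne_zero N (1728 : Qb)
    rwa [map_ofNat] at this
  have hj := Model.jX_ne_zero (L := Qb) N
  refine ordGE_iff.mpr (Or.inr ?_)
  rw [P.ord_mul (mul_ne_zero (pow_ne_zero _ hc) (pow_ne_zero _ hj)) (pow_ne_zero _ hne),
    P.ord_mul (pow_ne_zero _ hc) (pow_ne_zero _ hj), FF.ord_pow, FF.ord_pow, FF.ord_pow]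
  push_cast
  rw [multJ, hz] at hle
  by_cases h0 : a = 0
  · rw [if_pos (by rw [h0, map_zero])] at hle
    have e0 : P.ord (jX Qb N) = P.ord G := by rw [hG, h0, map_zero, sub_zero]
    have e1 := hj1 (by rw [h0]; norm_num)
    push_cast at hle
    omega
  rw [if_neg ((_root_.map_ne_zero embC).mpr h0)] at hle
  have e0 := hj0 h0
  by_cases h1 : a = 1728
  · rw [if_pos (by rw [h1, map_ofNat])] at hle
    have e1 : P.ord (jX Qb N - 1728) = P.ord G := by rw [hG, h1, map_ofNat]
    push_cast at hle
    omega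
  rw [if_neg fun h => h1 (embC.injective (by rw [h, map_ofNat]))] at hle
  have e1 := hj1 h1
  push_cast at hle
  omega

end CharZero

section Reduced

variable (N : ℕ) [NeZero N] {A : ValuationSubring (AlgebraicClosure ℚ)}
  [IsAlgClosed (IsLocalRing.ResidueField A)]
  [FF.IsFunctionField (IsLocalRing.ResidueField A) (FX (IsLocalRing.ResidueField A) N)]

local notation "kA" => IsLocalRing.ResidueField A
local notation "jk" => jX (IsLocalRing.ResidueField A) N

/-- The reduction of the expansion of `j` is the expansion of `j` over the residue field. -/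
theorem coe_redS_jX :
    (redS (IsLocalRing.residue A) (expX Qb N) (jX Qb N) : LaurentSeries kA) = jqModC kA := by
  rw [coe_redS, redF_of_mem (show expX Qb N (jX Qb N) ∈ intSeries A from jqModC_mem_intSeries)]
  refine Eq.trans ?_ (coeffMap_jqModC (IsLocalRing.residue A))
  rw [← redHom_coeffMap (IsLocalRing.residue A) (jqModC A) ⟨_, rfl⟩]
  exact congrArg _ (Subtype.ext coeffMap_subtype_jqModC.symm)

variable [CharP (IsLocalRing.ResidueField A) 3] (hA : A.LiesOverPrime 3) (hN : ¬ 3 ∣ N)

/-- `1728 = 0` in the function field over a residue field of characteristic three. -/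
theorem natCast1728_eq_zero : (1728 : FX kA N) = 0 := by
  rw [← map_ofNat (algebraMap kA (FX kA N)) 1728, ← Nat.cast_ofNat, map_eq_zero,
    CharP.cast_eq_zero_iff kA 3]
  norm_num

include hA hN

/-- **`c ^ 6 j ^ 7` is regular off the cusps when `dx = c dj` and `x` is.** -/
theorem theta_mem_intClosure {x c : FX kA N} (hx : x ∈ intClosure kA jk)
    (hD : KaehlerDifferential.D kA (FX kA N) x = c • KaehlerDifferential.D kA (FX kA N) jk) :
    c ^ 6 * jk ^ 7 ∈ intClosure kA jk := by
  have hM := natCast_ne_zero_residue A Nat.prime_three hA hN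
  obtain ⟨i1, i2⟩ := isFunctionField_X0 (L := Qb) (A := A) (π := IsLocalRing.residue A)
    IsLocalRing.residue_surjective hM
  have := i1
  have := i2
  have h := goodModel_X0 (L := Qb) (A := A) (π := IsLocalRing.residue A)
    IsLocalRing.residue_surjective hM
  obtain ⟨hn, -⟩ := normal_X0 (L := Qb) (A := A) embC IsLocalRing.residue_surjective hM
  have hspec := specField_X0 (L := Qb) (A := A) (π := IsLocalRing.residue A)
    IsLocalRing.residue_surjective hM
  -- the expansion of `x`
  have hΩ : KaehlerDifferential.D kA (FX kA N) jk ≠ 0 :=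
    D_ne_zero_of_separable Cusps.transcendental_jX (Cusps.isSeparable_jX hM)
  obtain ⟨c₁, hD₁, hθ₁⟩ := exists_thetaS_eq N hM x
  obtain rfl : c₁ = c := by
    by_contra hne
    have h0 : (c₁ - c) • KaehlerDifferential.D kA (FX kA N) jk = 0 := by
      rw [sub_smul, ← hD₁, ← hD, sub_self]
    exact (smul_eq_zero.mp h0).elim (sub_ne_zero.mpr hne) hΩ
  -- a lift
  obtain ⟨g, hg, hgx⟩ := hn ⟨(x : LaurentSeries kA), hspec.symm ▸ x.2⟩
    (mem_intClosure_of_eq hspec (zS := ⟨(x : LaurentSeries kA), hspec.symm ▸ x.2⟩) (zT := x)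
      (coe_redS_jX N) rfl hx)
  obtain ⟨y, hy⟩ := h.int_chart g hg
  have hy' : coeffMap A.subtype y = (g : LaurentSeries Qb) := hy
  have hyx : coeffMap (IsLocalRing.residue A) y = (x : LaurentSeries kA) := by
    have h1 := congrArg Subtype.val hgx
    rw [coe_redS, redF_of_mem ⟨y, hy⟩] at h1
    rw [← redHom_coeffMap (IsLocalRing.residue A) y ⟨_, rfl⟩]
    exact (congrArg _ (Subtype.ext hy)).trans h1
  have hNQ : (N : Qb) ≠ 0 := Nat.cast_ne_zero.mpr (NeZero.ne N)
  obtain ⟨c', hD', hθ'⟩ := exists_thetaS_eq N hNQ g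
  set W := c' ^ 6 * jX Qb N ^ 4 * (jX Qb N - 1728) ^ 3
  have hWser : expX Qb N W = coeffMap A.subtype (thetaS y ^ 6 * deltaSeriesInv A) := by
    rw [map_mul (coeffMap A.subtype), map_pow (coeffMap A.subtype), coeffMap_thetaS,
      coeffMap_deltaSeriesInv, hy']
    exact coe_theta_poly N hθ'
  have hW : W ∈ intClosure Qb (jX Qb N) :=
    theta_poly_mem_intClosure N (mem_intClosure_of_mem_chart hg) hD'
  have hred := redS_mem_intClosure_of_int h hW ⟨_, hWser.symm⟩
  have hser : ((c₁ ^ 6 * jk ^ 4 * (jk - 1728) ^ 3 : FX kA N) : LaurentSeries kA) =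
      (redS (IsLocalRing.residue A) (expX Qb N) W : LaurentSeries kA) := by
    rw [coe_redS, redF_of_mem ⟨_, hWser.symm⟩]
    refine Eq.trans ?_ (congrArg _ (Subtype.ext
      (a1 := (⟨coeffMap A.subtype (thetaS y ^ 6 * deltaSeriesInv A), ⟨_, rfl⟩⟩ : intSeries A))
      hWser.symm))
    refine Eq.trans ?_ (redHom_coeffMap (IsLocalRing.residue A) _ ⟨_, rfl⟩).symm
    rw [map_mul, map_pow, coeffMap_thetaS, coeffMap_deltaSeriesInv, hyx]
    exact coe_theta_poly N hθ₁
  have h2 := mem_intClosure_of_eq hspec.symm (jS := jk) (zS := c₁ ^ 6 * jk ^ 4 * (jk - 1728) ^ 3)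
    (coe_redS_jX N).symm hser hred
  rwa [natCast1728_eq_zero, sub_zero, mul_assoc, ← pow_add] at h2

/-- **Where `j = a ≠ 0` the function `j - a` is a uniformiser.** -/
theorem ord_jk_sub_eq_one {s : Place kA (FX kA N)} (hs : OrdGE s jk 0) {a : kA} (ha : a ≠ 0)
    (hpos : 0 < s.ord (jk - algebraMap kA (FX kA N) a)) :
    s.ord (jk - algebraMap kA (FX kA N) a) = 1 := by
  have hM := natCast_ne_zero_residue A Nat.prime_three hA hN
  have htr : Transcendental kA jk := Cusps.transcendental_jX
  have hΩ : KaehlerDifferential.D kA (FX kA N) jk ≠ 0 :=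
    D_ne_zero_of_separable htr (Cusps.isSeparable_jX hM)
  obtain ⟨x, -, hx, hx1⟩ := exists_intClosure_ord_one htr hs
  obtain ⟨c, hD, -⟩ := exists_thetaS_eq N hM x
  have hc : c ≠ 0 := fun h => D_ne_zero_of_ord_eq_one s hx1 (by rw [hD, h, zero_smul])
  have hd := ordDifferential_D_eq s (f := x) (by rw [hx1]; simp)
  rw [hx1, sub_self, hD, ordDifferential_smul s hc hΩ] at hd
  have hge := (mem_intClosure_iff.mp (theta_mem_intClosure N hA hN hx hD) s hs).le_ord
    (mul_ne_zero (pow_ne_zero _ hc) (pow_ne_zero _ (Model.jX_ne_zero (L := kA) N)))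
  rw [s.ord_mul (pow_ne_zero _ hc) (pow_ne_zero _ (Model.jX_ne_zero (L := kA) N)), FF.ord_pow,
    FF.ord_pow] at hge
  have hj : s.ord jk = 0 := by
    have h := ord_sub_algebraMap_eq_zero (f := jk - algebraMap kA (FX kA N) a) (c := -a) hpos
      (neg_ne_zero.mpr ha)
    rwa [map_neg, sub_neg_eq_add, sub_add_cancel] at h
  rw [hj] at hge
  push_cast at hge
  have hd0 := ordDifferential_D_nonneg s hs
  have hlo := le_ordDifferential_D s (f := jk - algebraMap kA (FX kA N) a)
    (hs.sub (FF.ordGE_algebraMap s a)) (by rwa [D_sub_algebraMap])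
  rw [D_sub_algebraMap] at hlo
  omega

end Reduced

end Fermat.MZ.Geo

end
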