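import Mathlib
import Fermat.Agent.BAD.AtP.Group

/-!
# Irreducible odd two-dimensional representations over `𝔽_p`

An irreducible image with an element of eigenvalues `1, -1` has an element
without eigenvalue one; no element with image conjugate to
`diag (c, 1)` acts as `c` on a nonzero group with the quadratic relations.
-/

set_option autoImplicit false

noncomputable section

namespace Fermat.MZ

open Matrix Fermat.BAD.AtP

universe u

variable {G : Type u} [Group G] {p : ℕ} [hp : Fact p.Prime]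

local notation "M2p" => Matrix (Fin 2) (Fin 2) (ZMod p)
local notation "GL2" => GL (Fin 2) (ZMod p)

/-- No line is stable. -/
def NoLine (ρ : G →* GL2) : Prop :=
  ∀ v : Fin 2 → ZMod p, v ≠ 0 → ∃ σ : G, ∀ c : ZMod p, (ρ σ : M2p) *ᵥ v ≠ c • v

/-- The representation in the basis given by the columns of `P`. -/
def inBasis (P : GL2) (ρ : G →* GL2) : G →* GL2 := (MulAut.conj P⁻¹).toMonoidHom.comp ρ

/-- `inBasis P ρ σ = P⁻¹ ρ(σ) P`. -/
theorem inBasis_apply (P : GL2) (ρ : G →* GL2) (σ : G) : inBasis P ρ σ = P⁻¹ * ρ σ * P := by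
  simp [inBasis]

/-- The matrix of `inBasis P ρ σ` is the product `P⁻¹ ρ(σ) P`. -/
theorem val_inBasis (P : GL2) (ρ : G →* GL2) (σ : G) :
    (inBasis P ρ σ : M2p) = (↑P⁻¹ : M2p) * (ρ σ : M2p) * (P : M2p) := by
  rw [inBasis_apply, Units.val_mul, Units.val_mul]

/-- A change of basis preserves the trace. -/
theorem trace_inBasis (P : GL2) (ρ : G →* GL2) (σ : G) :
    (inBasis P ρ σ : M2p).trace = (ρ σ : M2p).trace := by
  rw [val_inBasis, Matrix.trace_mul_cycle, Units.mul_inv, Matrix.one_mul]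

/-- A change of basis preserves the determinant. -/
theorem det_inBasis (P : GL2) (ρ : G →* GL2) (σ : G) :
    (inBasis P ρ σ : M2p).det = (ρ σ : M2p).det := by
  rw [val_inBasis, Matrix.det_units_conj']

/-- A change of basis preserves the absence of stable lines. -/
theorem NoLine.inBasis {ρ : G →* GL2} (h : NoLine ρ) (P : GL2) : NoLine (MZ.inBasis P ρ) := by
  intro v hv
  have hPv : (P : M2p) *ᵥ v ≠ 0 := fun h0 => hv (by
    rw [← one_mulVec v, ← Units.inv_mul P, ← mulVec_mulVec, h0, mulVec_zero])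
  obtain ⟨σ, hσ⟩ := h _ hPv
  refine ⟨σ, fun c hc => hσ c ?_⟩
  rw [← mulVec_smul, ← hc, mulVec_mulVec, mulVec_mulVec, val_inBasis, ← Matrix.mul_assoc,
    ← Matrix.mul_assoc, Units.mul_inv, Matrix.one_mul]

/-- **Both off-diagonal entries of one element are nonzero.** -/
theorem NoLine.exists_offDiag {ρ : G →* GL2} (h : NoLine ρ) :
    ∃ σ, (ρ σ : M2p) 0 1 ≠ 0 ∧ (ρ σ : M2p) 1 0 ≠ 0 := by
  obtain ⟨σ, hσ⟩ := h ![1, 0] (fun h0 => one_ne_zero (congrFun h0 0 : (1 : ZMod p) = 0))
  obtain ⟨τ, hτ⟩ := h ![0, 1] (fun h0 => one_ne_zero (congrFun h0 1 : (1 : ZMod p) = 0))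
  have he : (ρ σ : M2p) 1 0 ≠ 0 := fun h0 => hσ ((ρ σ : M2p) 0 0) (by
    ext i; fin_cases i <;> simp [h0, mulVec, dotProduct, Fin.sum_univ_two])
  have hb : (ρ τ : M2p) 0 1 ≠ 0 := fun h0 => hτ ((ρ τ : M2p) 1 1) (by
    ext i; fin_cases i <;> simp [h0, mulVec, dotProduct, Fin.sum_univ_two])
  by_contra hno
  push Not at hno
  have hb0 : (ρ σ : M2p) 0 1 = 0 := not_not.mp fun h0 => he (hno σ h0)
  have he0 : (ρ τ : M2p) 1 0 = 0 := hno τ hb
  have hd : ∀ g : G, (ρ g : M2p).det ≠ 0 := fun g =>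
    Matrix.det_ne_zero_of_left_inverse (ρ g).inv_mul
  have h1 : (ρ σ : M2p) 0 0 ≠ 0 := fun h0 => hd σ (by rw [det_fin_two, h0, hb0]; ring)
  have h2 : (ρ τ : M2p) 0 0 ≠ 0 := fun h0 => hd τ (by rw [det_fin_two, h0, he0]; ring)
  have e : ∀ i j, (ρ (σ * τ) : M2p) i j =
      (ρ σ : M2p) i 0 * (ρ τ : M2p) 0 j + (ρ σ : M2p) i 1 * (ρ τ : M2p) 1 j := fun i j => by
    rw [map_mul, Units.val_mul, mul_apply, Fin.sum_univ_two]
  have hb' : (ρ (σ * τ) : M2p) 0 1 ≠ 0 := by
    rw [e, hb0, zero_mul, add_zero]; exact mul_ne_zero h1 hb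
  have he' : (ρ (σ * τ) : M2p) 1 0 ≠ 0 := by
    rw [e, he0, mul_zero, add_zero]; exact mul_ne_zero he h2
  exact he' (hno _ hb')

/-- The matrix `diag (1, -1)`. -/
def diagPM : M2p := !![1, 0; 0, -1]

/-- Right multiplication by `diag (1, -1)` negates the second column. -/
theorem mul_diagPM (X : M2p) : X * diagPM = !![X 0 0, -X 0 1; X 1 0, -X 1 1] := by
  ext i j; fin_cases i <;> fin_cases j <;> simp [diagPM, mul_apply, Fin.sum_univ_two]

/-- An irreducible representation with an element of image `diag (1, -1)`, in some basis. -/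
structure OddImage (ρ : G →* GL2) : Prop where
  /-- No line is stable. -/
  noLine : NoLine ρ
  /-- Some element has matrix `diag (1, -1)` in some basis. -/
  exists_diag : ∃ (P : GL2) (γ : G), (inBasis P ρ γ : M2p) = diagPM

/-- `2 ≠ 0` in `ZMod p` for `2 < p`. -/
theorem two_ne_zero_zmod (h2 : 2 < p) : (2 : ZMod p) ≠ 0 := fun h => by
  have := Nat.le_of_dvd two_pos ((ZMod.natCast_eq_zero_iff 2 p).mp h)
  omega

/-- An involution of determinant `-1` is `diag (1, -1)` in some basis. -/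
theorem exists_diag_of_involution (h2 : 2 < p) {X : M2p} (hX : X * X = 1) (hd : X.det = -1) :
    ∃ P : GL2, (↑P⁻¹ : M2p) * X * (P : M2p) = diagPM := by
  have h20 := two_ne_zero_zmod (p := p) h2
  have hne : ∀ s : ZMod p, s * s = 1 → X ≠ s • 1 := fun s hs e => by
    rw [e, det_smul, det_one, mul_one, Fintype.card_fin, sq, hs] at hd
    exact h20 (by linear_combination hd)
  have key : ∀ s : ZMod p, s * s = 1 → ∃ u : Fin 2 → ZMod p, u ≠ 0 ∧ X *ᵥ u = s • u := by
    -- eigenvectors for `1` and `-1`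
    intro s hs
    have hY : X + s • 1 ≠ 0 := fun h0 => hne (-s) (by rw [neg_mul_neg, hs]) (by
      rw [neg_smul]; exact eq_neg_of_add_eq_zero_left h0)
    obtain ⟨v, hv⟩ : ∃ v, (X + s • 1) *ᵥ v ≠ 0 := by
      by_contra hall
      push Not at hall
      exact hY (Matrix.ext fun i j => by simpa using congrFun (hall (Pi.single j 1)) i)
    refine ⟨_, hv, ?_⟩
    rw [mulVec_mulVec, ← smul_mulVec, mul_add, hX, Matrix.mul_smul, mul_one, smul_add, smul_smul,
      hs, one_smul, add_comm]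
  obtain ⟨u, hu, hXu⟩ := key 1 (one_mul 1)
  obtain ⟨w, hw, hXw⟩ := key (-1) (by ring)
  -- they are independent, and the matrix of both is the basis
  set Q : M2p := !![u 0, w 0; u 1, w 1] with hQ
  have hQd : Q.det ≠ 0 := fun hd0 => by
    obtain ⟨z, hz, hQz⟩ := exists_mulVec_eq_zero_iff.mpr hd0
    have e : z 0 • u + z 1 • w = 0 := by
      ext i
      have := congrFun hQz i
      fin_cases i <;>
        (simp [Q, mulVec, dotProduct, Fin.sum_univ_two] at this; simp; linear_combination this)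
    have e' := congrArg (X *ᵥ ·) e
    simp only [mulVec_add, mulVec_smul, hXu, hXw, one_smul, neg_one_smul, mulVec_zero,
      smul_neg] at e'
    have hz0 : z 0 • u = 0 := by
      have := congrArg₂ (· + ·) e e'
      simp only [add_zero] at this
      have h' : (2 : ZMod p) • z 0 • u = 0 := by rw [two_smul]; rw [← this]; abel
      exact (smul_eq_zero.mp h').resolve_left h20
    have hz1 : z 1 • w = 0 := by rwa [hz0, zero_add] at e
    refine hz (funext fun i => ?_)
    fin_cases i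
    exacts [(smul_eq_zero.mp hz0).resolve_right hu, (smul_eq_zero.mp hz1).resolve_right hw]
  refine ⟨GeneralLinearGroup.mkOfDetNeZero Q hQd, ?_⟩
  set P := GeneralLinearGroup.mkOfDetNeZero Q hQd
  have hP : (P : M2p) = Q := rfl
  have hXQ : X * (P : M2p) = (P : M2p) * diagPM := by
    rw [hP]
    ext i j
    have eu := congrFun hXu i
    have ew := congrFun hXw i
    fin_cases i <;> fin_cases j <;>
      simp_all [Q, diagPM, mul_apply, mulVec, dotProduct, Fin.sum_univ_two]
  rw [Matrix.mul_assoc, hXQ, ← Matrix.mul_assoc, Units.inv_mul, Matrix.one_mul]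

/-- An irreducible representation with an involution of determinant `-1` has an odd image. -/
theorem oddImage_of_involution (h2 : 2 < p) {ρ : G →* GL2} (h : NoLine ρ) {γ : G}
    (hγ : γ * γ = 1) (hd : (ρ γ : M2p).det = -1) : OddImage ρ := by
  obtain ⟨P, hP⟩ := exists_diag_of_involution h2 (X := (ρ γ : M2p))
    (by rw [← Units.val_mul, ← map_mul, hγ, map_one, Units.val_one]) hd
  exact ⟨h, P, γ, by rw [val_inBasis, hP]⟩

namespace OddImage

variable {ρ : G →* GL (Fin 2) (ZMod p)} (h : OddImage ρ)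
include h

/-- A basis with `diag (1, -1)` in the image and an element off both triangles. -/
theorem exists_offDiag_diag : ∃ (P : GL2) (γ σ : G), (inBasis P ρ γ : M2p) = diagPM ∧
    (inBasis P ρ σ : M2p) 0 1 ≠ 0 ∧ (inBasis P ρ σ : M2p) 1 0 ≠ 0 := by
  obtain ⟨P, γ, hγ⟩ := h.exists_diag
  obtain ⟨σ, hσ⟩ := (h.noLine.inBasis P).exists_offDiag
  exact ⟨P, γ, σ, hγ, hσ⟩

/-- **Some element has no eigenvalue one.** -/
theorem exists_det_sub_one_ne (h2 : 2 < p) :
    ∃ σ, (ρ σ : M2p).det - (ρ σ : M2p).trace + 1 ≠ 0 := by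
  obtain ⟨P, γ, σ, hγ, hb, he⟩ := h.exists_offDiag_diag
  by_contra hall
  push Not at hall
  have h20 := two_ne_zero_zmod (p := p) h2
  have e1 := hall σ
  have e2 := hall (σ * γ)
  rw [← det_inBasis P, ← trace_inBasis P] at e1 e2
  rw [map_mul, Units.val_mul, hγ, mul_diagPM, det_fin_two_of, trace_fin_two_of] at e2
  rw [det_fin_two, trace_fin_two] at e1
  set X := (inBasis P ρ σ : M2p)
  have ha : X 0 0 = 1 := mul_left_cancel₀ h20 (by linear_combination -e1 - e2)
  refine mul_ne_zero hb he ?_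
  rw [ha] at e1
  linear_combination -e1

end OddImage

section Scalar

variable {V : Type*} [AddCommGroup V] [DistribMulAction G V]

/-- **No element with image conjugate to `diag (c, 1)` acts as `c`.** -/
theorem false_of_scalar_noLine {ρ : G →* GL2} (hirr : NoLine ρ) {W : AddSubgroup V}
    (hW : IsQuadratic ρ W) (hne : W ≠ ⊥) {γ : G} {c : ZMod p} (hc0 : c ≠ 0) (hc1 : c ≠ 1)
    (P : GL2) (hγ : (ρ γ : M2p) = (P : M2p) * !![c, 0; 0, 1] * (↑P⁻¹ : M2p))
    (hscal : ∀ x ∈ W, γ • x = c.val • x) : False := by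
  obtain ⟨τ, hb, hg⟩ := (hirr.inBasis P).exists_offDiag
  -- the product `δ` of `γ` and a conjugate acts as `c * c`
  set δ := γ * (τ * γ * τ⁻¹)
  have hact : ∀ x ∈ W, δ • x = (c * c).val • x := fun x hx => by
    rw [mul_smul, mul_smul, mul_smul, hscal _ (hW.stable _ _ hx), smul_nsmul_comm, smul_inv_smul,
      smul_nsmul_comm, hscal x hx, val_nsmul_mul (hW.torsion x hx)]
  set D : M2p := !![c, 0; 0, 1]
  have hD : (inBasis P ρ γ : M2p) = D := by
    rw [val_inBasis, hγ, ← Matrix.mul_assoc, ← Matrix.mul_assoc, Units.inv_mul, Matrix.one_mul,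
      Matrix.mul_assoc, Units.inv_mul, Matrix.mul_one]
  set Y := (inBasis P ρ τ : M2p)
  have hdγ : (ρ γ : M2p).det = c := by rw [← det_inBasis P, hD, det_fin_two_of]; ring
  have hdδ : (ρ δ : M2p).det = c * c := by
    simp only [δ, map_mul, map_inv, Units.val_mul, det_mul, hdγ]
    have : (ρ τ : M2p).det * (↑(ρ τ)⁻¹ : M2p).det = 1 := by
      rw [← det_mul, ← Units.val_mul, mul_inv_cancel, Units.val_one, det_one]
    linear_combination c * c * this
  have hYd : Y.det ≠ 0 := Matrix.det_ne_zero_of_left_inverse (inBasis P ρ τ).inv_mul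
  -- its trace in the basis of `P`
  have htδ : Y.det * (ρ δ : M2p).trace =
      (c * c + 1) * (Y 0 0 * Y 1 1) - 2 * c * (Y 0 1 * Y 1 0) := by
    rw [← trace_inBasis P]
    simp only [δ, map_mul, map_inv, Units.val_mul, hD]
    have hi : (↑(inBasis P ρ τ)⁻¹ : M2p) = Y.det⁻¹ • !![Y 1 1, -Y 0 1; -Y 1 0, Y 0 0] := by
      rw [Matrix.coe_units_inv, Matrix.inv_def, Ring.inverse_eq_inv', adjugate_fin_two]
    rw [hi, Matrix.mul_smul, Matrix.mul_smul, trace_smul, smul_eq_mul,
      mul_inv_cancel_left₀ hYd]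
    rw [show ((inBasis P ρ τ : GL2) : M2p) = Y from rfl]
    simp [D, trace_fin_two, mul_apply, Fin.sum_univ_two, vecMul, dotProduct]
    ring
  -- the quadratic relation forces the trace `c * c + 1`, so an entry off the diagonal vanishes
  obtain ⟨⟨x, hx⟩, hx0⟩ := W.ne_bot_iff_exists_ne_zero.mp hne
  have hp := hW.torsion x hx
  have hrel := hW.relation δ x hx
  rw [hact x hx, smul_nsmul_comm, hact x hx, hdδ, ← val_nsmul_mul hp, ← val_nsmul_mul hp,
    sub_add_eq_add_sub, sub_eq_zero, ← val_nsmul_add hp] at hrel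
  have hsc : (c * c * (c * c) + c * c - (ρ δ : M2p).trace * (c * c)).val • x = 0 := by
    have h3 := val_nsmul_add hp (c * c * (c * c) + c * c - (ρ δ : M2p).trace * (c * c))
      ((ρ δ : M2p).trace * (c * c))
    rw [sub_add_cancel, hrel] at h3
    exact right_eq_add.mp h3
  have ht : (ρ δ : M2p).trace = c * c + 1 := by
    by_contra hne'
    refine hx0 (Subtype.ext (eq_zero_of_val_nsmul hp ?_ hsc))
    rw [show c * c * (c * c) + c * c - (ρ δ : M2p).trace * (c * c) =
      c * c * (c * c + 1 - (ρ δ : M2p).trace) by ring]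
    exact mul_ne_zero (mul_ne_zero hc0 hc0) (sub_ne_zero.mpr (Ne.symm hne'))
  rw [ht, det_fin_two] at htδ
  have h0 : (c - 1) * (c - 1) * (Y 0 1 * Y 1 0) = 0 := by linear_combination -htδ
  rcases mul_eq_zero.mp h0 with h1 | h1
  · exact hc1 (sub_eq_zero.mp (mul_self_eq_zero.mp h1))
  · exact mul_ne_zero hb hg h1

end Scalar

end Fermat.MZ

end
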