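import Fermat.Agent.MZ.Engine
import Fermat.Agent.GR.RT.TorsionModular

/-!
# The Mazur principle at `p` for irreducible residual representations

If the orders of eigen functions descend along some change of level by a prime `r ≡ 11 (mod 12)`,
modularity of level `M p` with ordinary or supersingular local data at `p` (`OrdLocal`, `SSLocal`)
gives modularity of level `M`.  For `p ≥ 5` a prime `r` with `r + 1` prime to `p` does this.

`modularOf_of_hasDescent` is the principle, `hasDescent_of_five_le` the descent for `p ≥ 5`.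
-/

set_option autoImplicit false

attribute [local instance 10000] SubalgebraClass.toAlgebra HahnSeries.powerSeriesAlgebra

noncomputable section

open ModularCurve AlgebraicCurve IsLocalRing

namespace Fermat.MZ

open Fermat.FF Fermat.MC Fermat.JAC Fermat.JAC.X0 Fermat.RED Fermat.RED.Model Fermat.BAD.X0
  Fermat.BAD.Corr Fermat.BAD.AtP Fermat.GR.RT Fermat.SW

local notation "Qb" => AlgebraicClosure ℚ
local notation "Γℚ" => (AlgebraicClosure ℚ ≃ₐ[ℚ] AlgebraicClosure ℚ)

/-- Some auxiliary prime makes the orders of eigen functions descend. -/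
def HasDescent (p : ℕ) [Fact p.Prime] (M : ℕ) [NeZero M] (rb : Γℚ →* GL (Fin 2) (ZMod p))
    (A : ValuationSubring (AlgebraicClosure ℚ)) : Prop :=
  ∃ (r : ℕ) (_ : r.Prime) (_ : r % 12 = 11) (_ : ¬ r ∣ M) (_ : r ≠ p),
    ∀ [NeZero (M * r)] [IsAlgClosed (ResidueField A)] [CharP (ResidueField A) p]
      [FF.IsFunctionField (ResidueField A) (modularFunctionFieldFullC (ResidueField A) M)]
      [FF.IsFunctionField (ResidueField A) (modularFunctionFieldFullC (ResidueField A) (M * r))],
      Descends (p := p) A rb (dvd_mul_right M r : M ∣ M * r)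

variable {p : ℕ} [Fact p.Prime] {rb : Γℚ →* GL (Fin 2) (ZMod p)} {M : ℕ}

/-- **The Mazur principle at `p`**, given a descent. -/
theorem modularOf_of_hasDescent [NeZero M] (hp2 : 2 < p) (hrb : IsIrrResidual p rb) (hpM : ¬ p ∣ M)
    {A : ValuationSubring (AlgebraicClosure ℚ)} (hA : A.LiesOverPrime p)
    (hloc : Nonempty (OrdLocal p A rb) ∨ Nonempty (SSLocal p A rb))
    (hdesc : HasDescent p M rb A) (hmod : ModularOf p rb (M * p)) : ModularOf p rb M := by
  have hp : p.Prime := Fact.out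
  obtain ⟨r, hr, h12, hrM, hrp, hdesc⟩ := hdesc
  have : NeZero p := ⟨hp.ne_zero⟩
  have : NeZero r := ⟨hr.ne_zero⟩
  have : NeZero (M * p) := ⟨mul_ne_zero (NeZero.ne M) hp.ne_zero⟩
  have : NeZero (M * r) := ⟨mul_ne_zero (NeZero.ne M) hr.ne_zero⟩
  have : NeZero (M * r * p) := ⟨mul_ne_zero (NeZero.ne (M * r)) hp.ne_zero⟩
  have hpM' : ¬ p ∣ M * r := fun h => (hp.dvd_mul.mp h).elim hpM fun h' =>
    hrp ((Nat.prime_dvd_prime_iff_eq hp hr).mp h').symm
  have := Model.isAlgClosed_residue A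
  have : CharP (ResidueField A) p := charP_residue hp hA
  have : FF.IsFunctionField (ResidueField A) (modularFunctionFieldFullC (ResidueField A) M) :=
    Fermat.RED.Cusps.isFunctionField (natCast_ne_zero_residue A hp hA hpM)
  have : FF.IsFunctionField (ResidueField A)
      (modularFunctionFieldFullC (ResidueField A) (M * r)) :=
    Fermat.RED.Cusps.isFunctionField (natCast_ne_zero_residue A hp hA hpM')
  have : FF.IsFunctionField Qb (FN (M * p) Qb) := MC.isFunctionField_FN (M * p) embC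
  have : FF.IsFunctionField Qb (FN M Qb) := MC.isFunctionField_FN M embC
  have : FF.IsFunctionField Qb (FN (M * r * p) Qb) := MC.isFunctionField_FN (M * r * p) embC
  have : FF.IsFunctionField Qb (FN (M * r) Qb) := MC.isFunctionField_FN (M * r) embC
  have h0 : M ∣ M * r := dvd_mul_right M r
  have h : M * p ∣ M * r * p := Nat.mul_dvd_mul_right h0 p
  -- a nonzero eigen group of level `M p`; at level `M r p` its pullback vanishes
  by_contra hnot
  obtain ⟨V, hVne, hV, hT⟩ :=
    exists_w0_away_irr (M := M) (L := M * p) (M * p) dvd_rfl (NeZero.ne M) dvd_rfl hrb hmod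
  have hbot : V.map (pullN h) = ⊥ := by
    rcases hloc with ⟨⟨O⟩⟩ | ⟨⟨S⟩⟩
    · exact map_pullN_eq_bot_ord hpM hpM' h h0 hA hr h12 (dvd_mul_left r M) hdesc hnot hV hT hp2 hrb
        ⟨hp, hA⟩ O
    · exact map_pullN_eq_bot_ss hpM hpM' h h0 hA hr h12 (dvd_mul_left r M) hnot hV hT ⟨hp, hA⟩ S
  -- but the pullback is injective on torsion
  refine hVne (V.eq_bot_iff_forall.mpr fun x hx => ?_)
  refine pullN_injective h hr (fun hd => (hr.dvd_mul.mp hd).elim hrM fun h' =>
    hrp ((Nat.prime_dvd_prime_iff_eq hr hp).mp h')) (by ring) hp (Ne.symm hrp) (hV.torsion x hx) ?_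
  exact AddSubgroup.mem_bot.mp (hbot ▸ AddSubgroup.mem_map_of_mem _ hx)

/-- **Descent for `p ≥ 5`**: the degree `r + 1` can be prime to `p`. -/
theorem hasDescent_of_five_le [NeZero M] (hp5 : 5 ≤ p) (hpM : ¬ p ∣ M)
    {A : ValuationSubring (AlgebraicClosure ℚ)} (hA : A.LiesOverPrime p) :
    HasDescent p M rb A := by
  have hp : p.Prime := Fact.out
  have hcop : Nat.Coprime 12 p := by
    refine ((Nat.Prime.coprime_iff_not_dvd hp).mpr fun h => ?_).symm
    have := Nat.le_of_dvd (by norm_num) h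
    interval_cases p <;> norm_num at *
  obtain ⟨a, ha12, hap⟩ := Nat.chineseRemainder hcop 11 1
  have hac : Nat.Coprime a (12 * p) := by
    refine Nat.Coprime.mul_right ?_ ?_
    · rw [Nat.Coprime, Nat.gcd_comm, Nat.gcd_rec, ha12]; rfl
    · rw [Nat.Coprime, Nat.gcd_comm, Nat.gcd_rec, hap, Nat.one_mod_eq_one.mpr hp.ne_one]
      exact Nat.gcd_one_left p
  -- a prime `r ≡ 11 (mod 12)` with `r ≡ 1 (mod p)`
  obtain ⟨r, hgt, hr, hmodr⟩ := Nat.forall_exists_prime_gt_and_modEq (M + p)
    (q := 12 * p) (mul_ne_zero (by norm_num) hp.ne_zero) hac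
  have h12 : r % 12 = 11 := (hmodr.of_mul_right p).trans ha12
  have h1 : r ≡ 1 [MOD p] := (hmodr.of_mul_left 12).trans hap
  have hrM : ¬ r ∣ M := fun h => absurd (Nat.le_of_dvd (Nat.pos_of_neZero M) h) (by omega)
  have hrp : r ≠ p := by omega
  refine ⟨r, hr, h12, hrM, hrp, ?_⟩
  intro _ _ _ _ _ H hH hup _ P
  have : NeZero r := ⟨hr.ne_zero⟩
  set φ := IntermediateField.inclusion
    (full_degeneracyC_le (ResidueField A) (dvd_mul_right M r : M ∣ M * r))
  have hdeg : finrankAlong (ResidueField A) φ = r + 1 :=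
    finrank_incl (k := ResidueField A) hr hrM
      (natCast_mul_ne_zero (p := p) hp hA hr hrp hpM)
  set E := (divOf (ResidueField A) (φ H)).mapRange (fun z => z / (p : ℤ)) (Int.zero_ediv _) with hE
  have hpE : p • E = divOf (ResidueField A) (φ H) := Finsupp.ext fun v => by
    simp only [hE, Finsupp.smul_apply, Finsupp.mapRange_apply, nsmul_eq_mul]
    exact Int.mul_ediv_cancel' (by rw [divOf_apply]; exact hup v)
  -- pushing forward: `p` divides `(r + 1) ord H`
  have key := pushDiv_pullDiv φ (divOf (ResidueField A) H)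
  rw [pullDiv_divOf, ← hpE, map_nsmul, hdeg] at key
  have hd : (p : ℤ) ∣ ((r + 1 : ℕ) : ℤ) * P.ord H := by
    refine ⟨pushDiv φ E P, ?_⟩
    have := congrArg (fun D : Divisor (ResidueField A) _ => D P) key
    simpa [divOf_apply, nsmul_eq_mul] using this.symm
  refine ((Nat.prime_iff_prime_int.mp hp).dvd_mul.mp hd).resolve_left fun hdv => ?_
  have h2 : r + 1 ≡ 2 [MOD p] := h1.add_right 1
  have : p ∣ 2 := (Nat.ModEq.dvd_iff h2 dvd_rfl).mp (by exact_mod_cast hdv)
  have := Nat.le_of_dvd two_pos this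
  omega

variable {W : WeierstrassCurve ℤ}

/-- **Residual modularity at level `M / p`**, given a descent. -/
theorem residuallyModular_div_of_hasDescent (hW : W.Δ ≠ 0) (hp2 : p ≠ 2)
    (hsemi : (p : ℤ) ∣ W.Δ → ¬ (p : ℤ) ∣ W.c₄) (hirr : W.ModRepIsIrreducible p)
    (hdvd : p ∣ padicValInt p W.Δ) (hM : 0 < M) (hpM : p ∣ M) (hp2M : ¬ p ^ 2 ∣ M)
    (hdesc : ∀ [NeZero (M / p)] (A : ValuationSubring (AlgebraicClosure ℚ)), A.LiesOverPrime p →
      HasDescent p (M / p) (Tors.tRep (p := p) W hW) A)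
    (hmod : W.IsResiduallyModularOfLevel p M) :
    W.IsResiduallyModularOfLevel p (M / p) := by
  have hp : p.Prime := Fact.out
  have h2 : 2 < p := lt_of_le_of_ne hp.two_le (Ne.symm hp2)
  obtain ⟨M₀, rfl⟩ := hpM
  rw [Nat.mul_div_cancel_left _ hp.pos] at hdesc ⊢
  have : NeZero M₀ := ⟨(pos_of_mul_pos_right hM (Nat.zero_le p)).ne'⟩
  have hpM₀ : ¬ p ∣ M₀ := fun h => hp2M (by rw [pow_two]; exact mul_dvd_mul_left p h)
  have hrb := isIrrResidual_tRep hW hirr
  obtain ⟨A, hA, hloc⟩ := exists_local_of_dvd hW hsemi h2 hdvd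
  refine residuallyModular_of_modularOf hW hp2
    (modularOf_of_hasDescent h2 hrb hpM₀ hA hloc (hdesc A hA) ?_)
  rw [mul_comm]
  exact modularOf_of_residuallyModular hrb.isOpen_ker hrb.det_eq h2 hW (Tors.trace_tRep hW) hM
    hmod

/-- **Residual modularity at level `M / p` for `p ≥ 5`.** -/
theorem residuallyModular_div_of_five_le (hW : W.Δ ≠ 0) (hp5 : 5 ≤ p)
    (hsemi : (p : ℤ) ∣ W.Δ → ¬ (p : ℤ) ∣ W.c₄) (hirr : W.ModRepIsIrreducible p)
    (hdvd : p ∣ padicValInt p W.Δ) (hM : 0 < M) (hpM : p ∣ M) (hp2M : ¬ p ^ 2 ∣ M)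
    (hmod : W.IsResiduallyModularOfLevel p M) :
    W.IsResiduallyModularOfLevel p (M / p) :=
  residuallyModular_div_of_hasDescent hW (by omega) hsemi hirr hdvd hM hpM hp2M
    (fun {_} A hA => hasDescent_of_five_le hp5
      (fun h => hp2M (pow_two p ▸ (Nat.dvd_div_iff_mul_dvd hpM).mp h)) hA) hmod

end Fermat.MZ

end
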