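import Fermat.Agent.BAD.X0.LevelChange
import Fermat.Agent.BAD.Inst.Norm
import Fermat.Agent.BAD.AtP.Powers
import Fermat.Agent.HT.Cusp.Places

/-!
# Classes of torsion divisors under a change of level

The pullback along an inclusion of levels commutes on torsion classes with the Hecke operators and
with the two pushforwards, and with Galois.  It is injective on `p`-torsion when the levels differ
by one prime `r ≠ p` prime to the lower one: an expansion at the cusp of width `r` shows that the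
larger field has no `p`-th roots of functions of the smaller one.
-/

set_option autoImplicit false

attribute [local instance 10000] SubalgebraClass.toAlgebra HahnSeries.powerSeriesAlgebra

noncomputable section

open ModularCurve AlgebraicCurve

namespace Fermat.MZ

open Fermat.FF Fermat.MC Fermat.JAC Fermat.JAC.X0 Fermat.RED Fermat.BAD.X0 Fermat.BAD.AtP

local notation "Qb" => AlgebraicClosure ℚ
local notation "Γℚ" => (AlgebraicClosure ℚ ≃ₐ[ℚ] AlgebraicClosure ℚ)

section Norm

variable {M M' q : ℕ} [NeZero M] [NeZero M'] [NeZero q] [Fact q.Prime] (hq : q.Prime)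
  (hqM : ¬ q ∣ M) (hqM' : ¬ q ∣ M') (h : M * q ∣ M' * q) (h0 : M ∣ M')

include hq hqM hqM' in
/-- **Norms commute with the change of level.** -/
theorem norm_inclN (b : Bool) (f : FN (M * q) Qb) :
    normAlong (degMap M' q b) (inclN h f) = inclN h0 (normAlong (degMap M q b) f) := by
  have : FF.IsFunctionField Qb (FN (M * q) Qb) := MC.isFunctionField_FN (M * q) embC
  have : FF.IsFunctionField Qb (FN M Qb) := MC.isFunctionField_FN M embC
  have : FF.IsFunctionField Qb (FN (M' * q) Qb) := MC.isFunctionField_FN (M' * q) embC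
  have : FF.IsFunctionField Qb (FN M' Qb) := MC.isFunctionField_FN M' embC
  obtain ⟨ζ, hζ⟩ := exists_zeta q
  refine Subtype.ext (qExpand_injective (R := Qb) q ?_)
  rw [coe_inclN, BAD.Inst.normAlong_degMap M' q hq hqM', BAD.Inst.normAlong_degMap M q hq hqM,
    qExpand_norm M' q hq hqM' hζ, qExpand_norm M q hq hqM hζ]
  simp only [BAD.Inst.emb_toInf, emb_inclN hq hqM hqM' h]

end Norm

variable {N N' : ℕ} [NeZero N] [NeZero N'] (h : N ∣ N')

/-- The inclusion of levels on classes. -/
def pullN [FF.IsFunctionField Qb (FN N Qb)] [FF.IsFunctionField Qb (FN N' Qb)] :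
    JZero N →+ JZero N' := pullPic (inclN h)

variable [FF.IsFunctionField Qb (FN N Qb)] [FF.IsFunctionField Qb (FN N' Qb)]

/-- The pullback of a degree-zero divisor has degree zero. -/
theorem pullDiv_mem_degZero {D : Divisor Qb (FN N Qb)} (hD : D ∈ Divisor.degZero) :
    pullDiv (inclN h) D ∈ Divisor.degZero := by
  rw [Divisor.mem_degZero, degree_pullDiv, Divisor.mem_degZero.mp hD, mul_zero]

/-- The inclusion of levels on classes commutes with the Galois action. -/
theorem pullN_galois (σ : Γℚ) (x : JZero N) : pullN h (σ • x) = σ • pullN h x := by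
  change pullPic (inclN h) (σ • x) = σ • pullPic (inclN h) x
  rw [galois_smul_pic0_def, galois_smul_pic0_def,
    pullPic_smul (s' := arithmeticGalois (L := Qb) (modularFunctionFieldFull N') σ) fun f =>
      inclN_galois h σ f]

/-- **The pullback commutes with `T ℓ` on torsion classes.** -/
theorem pullN_heckeOperatorBar {n : ℕ} (hn : n ≠ 0) (ℓ : Nat.Primes) (hℓ : ¬ (ℓ : ℕ) ∣ N')
    {x : JZero N} (hx : n • x = 0) :
    pullN h (heckeOperatorBar N ℓ x) = heckeOperatorBar N' ℓ (pullN h x) := by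
  have : NeZero (ℓ : ℕ) := ⟨ℓ.2.ne_zero⟩
  have := Fact.mk ℓ.2
  have : FF.IsFunctionField Qb (FN (N * ℓ) Qb) := MC.isFunctionField_FN (N * ℓ) embC
  have : FF.IsFunctionField Qb (FN (N' * ℓ) Qb) := MC.isFunctionField_FN (N' * ℓ) embC
  have hℓN : ¬ (ℓ : ℕ) ∣ N := fun hd => hℓ (hd.trans h)
  have h' : N * (ℓ : ℕ) ∣ N' * ℓ := Nat.mul_dvd_mul_right h _
  -- some multiple of `D` is the divisor of a function `y`
  obtain ⟨D, rfl⟩ := Pic0.mk_surjective x
  have hx' : Pic0.mk (n • D) = 0 := (map_nsmul (QuotientAddGroup.mk' _) n D).trans hx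
  rw [pic0_mk_eq_zero_iff] at hx'
  obtain ⟨y, hy, hyD⟩ := hx'
  have hdiv : divOf Qb y = n • (D : Divisor Qb (FN N Qb)) := hyD.trans (AddSubgroup.coe_nsmul _ _ _)
  set α := heckeAlphaBar Qb N ℓ
  set β := heckeBetaBar Qb N ℓ
  set α' := heckeAlphaBar Qb N' ℓ
  set β' := heckeBetaBar Qb N' ℓ
  -- both sides are classes of divisors
  have hm1 : pullDiv β (D : Divisor Qb (FN N Qb)) ∈ Divisor.degZero := by
    rw [Divisor.mem_degZero, degree_pullDiv, Divisor.mem_degZero.mp D.2, mul_zero]
  have hm2 : pushDiv α (pullDiv β (D : Divisor Qb (FN N Qb))) ∈ Divisor.degZero := by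
    rw [Divisor.mem_degZero, degree_pushDiv, Divisor.mem_degZero.mp hm1]
  have hm3 : pullDiv β' (pullDiv (inclN h) (D : Divisor Qb (FN N Qb))) ∈ Divisor.degZero := by
    rw [Divisor.mem_degZero, degree_pullDiv,
      Divisor.mem_degZero.mp (pullDiv_mem_degZero h D.2), mul_zero]
  have hm4 : pushDiv α' (pullDiv β' (pullDiv (inclN h) (D : Divisor Qb (FN N Qb)))) ∈
      Divisor.degZero := by
    rw [Divisor.mem_degZero, degree_pushDiv, Divisor.mem_degZero.mp hm3]
  change pullPic (inclN h) (heckeOperatorBar N ℓ (Pic0.mk D)) =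
    heckeOperatorBar N' ℓ (pullPic (inclN h) (Pic0.mk D))
  rw [(heckeOperatorBar_eq N ℓ (Pic0.mk D)).trans ((congrArg (pushPic α)
    (pullPic_mk β D hm1)).trans (pushPic_mk α ⟨_, hm1⟩ hm2))]
  refine Eq.trans ?_ (((congrArg (heckeOperatorBar N' ℓ) (pullPic_mk (inclN h) D
    (pullDiv_mem_degZero h D.2))).trans ((heckeOperatorBar_eq N' ℓ _).trans
      ((congrArg (pushPic α') (pullPic_mk β' ⟨_, pullDiv_mem_degZero h D.2⟩ hm3)).trans
        (pushPic_mk α' ⟨_, hm3⟩ hm4))))).symm
  -- after multiplying by `n` it is the commutation of the norm with the inclusion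
  refine (pullPic_mk (inclN h) ⟨_, hm2⟩ (pullDiv_mem_degZero h hm2)).trans
    (congrArg Pic0.mk (Subtype.ext (smul_right_injective (Divisor Qb (FN N' Qb)) hn ?_)))
  change n • pullDiv (inclN h) (pushDiv α (pullDiv β (D : Divisor Qb (FN N Qb)))) =
    n • pushDiv α' (pullDiv β' (pullDiv (inclN h) (D : Divisor Qb (FN N Qb))))
  have hβ : β' (inclN h y) = inclN h' (β y) := Subtype.ext (by
    rw [coe_heckeBetaBar, coe_inclN, coe_inclN, coe_heckeBetaBar])
  rw [← map_nsmul, ← map_nsmul, ← map_nsmul, ← map_nsmul, ← map_nsmul, ← map_nsmul, ← hdiv,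
    pullDiv_divOf, pushDiv_divOf α ((map_ne_zero β).mpr hy), pullDiv_divOf, pullDiv_divOf,
    pullDiv_divOf, pushDiv_divOf α' ((map_ne_zero β').mpr ((map_ne_zero _).mpr hy)), hβ]
  exact congrArg (divOf Qb) (norm_inclN ℓ.2 hℓN hℓ h' h true (β y)).symm

section Kummer

/-- A series supported on the multiples of `r` is a series in `q ^ r`. -/
theorem mem_range_qExpand {R : Type*} [CommRing R] {r : ℕ} [NeZero r] {S : LaurentSeries R}
    (hS : ∀ n : ℤ, ¬ (r : ℤ) ∣ n → S.coeff n = 0) : S ∈ (qExpand R r).range := by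
  have hr : (0 : ℤ) < r := by exact_mod_cast Nat.pos_of_ne_zero (NeZero.ne r)
  refine RingHom.mem_range.mpr ⟨{ coeff := fun m => S.coeff (r * m), isPWO_support' := ?_ }, ?_⟩
  · refine (BddBelow.isWF ⟨min S.order 0, fun m hm => ?_⟩).isPWO
    rcases le_or_gt 0 m with h0 | h0
    · exact (min_le_right _ _).trans h0
    · have h1 : S.order ≤ (r : ℤ) * m := HahnSeries.order_le_of_coeff_ne_zero hm
      have h2 : (r : ℤ) * m ≤ m := by nlinarith
      exact (min_le_left _ _).trans (h1.trans h2)
  · ext n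
    by_cases hn : (r : ℤ) ∣ n
    · obtain ⟨m, rfl⟩ := hn
      rw [qExpand_coeff_mul]
    · rw [qExpand_coeff_of_not_dvd r _ hn, hS n hn]

/-- For primes `p ≠ r` a series whose `p`-th power is a series in `q ^ r` is one itself. -/
theorem mem_range_of_pow {p r : ℕ} [NeZero r] (hp : p.Prime) (hr : r.Prime) (hpr : p ≠ r)
    {S : LaurentSeries Qb} (hS : S ^ p ∈ (qExpand Qb r).range) : S ∈ (qExpand Qb r).range := by
  rcases eq_or_ne S 0 with rfl | hS0
  · exact zero_mem _
  obtain ⟨ζ, hζ⟩ := exists_zeta r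
  obtain ⟨a, ha⟩ := hS
  have hζr : ζ ^ r = 1 := Units.ext (by rw [Units.val_pow_eq_pow_val, hζ.pow_eq_one, Units.val_one])
  have htw : twist ζ (S ^ p) = S ^ p := by rw [← ha, twist_qExpand, hζr, twist_one_apply]
  -- twisting multiplies `S` by a `p`-th root of unity
  set ξ : LaurentSeries Qb := twist ζ S / S with hξ
  have hξp : ξ ^ p = 1 := by rw [hξ, div_pow, ← map_pow, htw, div_self (pow_ne_zero p hS0)]
  have : NeZero p := ⟨hp.ne_zero⟩
  obtain ⟨ω', hω⟩ := exists_zeta p
  set ω : Qb := (ω' : Qb)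
  obtain ⟨i, -, hi⟩ := (hω.map_of_injective
    (f := (algebraMap Qb (LaurentSeries Qb))) (RingHom.injective _)).eq_pow_of_pow_eq_one hξp
  have hTS : twist ζ S = algebraMap Qb (LaurentSeries Qb) (ω ^ i) * S := by
    rw [map_pow, hi, hξ, div_mul_cancel₀ _ hS0]
  have hcoef : ∀ n : ℤ, (ζ : Qb) ^ n * S.coeff n = ω ^ i * S.coeff n := fun n => by
    have h1 := congrArg (fun T : LaurentSeries Qb => T.coeff n) hTS
    simp only [algebraMap_laurentSeries_eq_single, twist_coeff, Units.val_zpow_eq_zpow_val,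
      HahnSeries.coeff_single_zero_mul] at h1
    exact h1
  -- at one exponent it is also an `r`-th root of unity, hence one
  obtain ⟨n₀, hn₀⟩ : ∃ n, S.coeff n ≠ 0 := by
    by_contra hall
    push Not at hall
    exact hS0 (HahnSeries.ext (funext hall))
  have hω0 : ω ^ i = (ζ : Qb) ^ n₀ := (mul_right_cancel₀ hn₀ (hcoef n₀)).symm
  have hr0 : (r : ℤ) ∣ n₀ := by
    rw [← hζ.zpow_eq_one_iff_dvd]
    have e1 : ((ζ : Qb) ^ n₀) ^ p = 1 := by
      rw [← hω0, ← pow_mul, mul_comm, pow_mul, hω.pow_eq_one, one_pow]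
    have e2 : ((ζ : Qb) ^ n₀) ^ r = 1 := by
      rw [← zpow_natCast ((ζ : Qb) ^ n₀), ← zpow_mul, mul_comm, zpow_mul, zpow_natCast,
        hζ.pow_eq_one, one_zpow]
    have := pow_gcd_eq_one.mpr ⟨e1, e2⟩
    rwa [((Nat.coprime_primes hp hr).mpr hpr).gcd_eq_one, pow_one] at this
  -- so every exponent is divisible by `r`
  refine mem_range_qExpand fun n hn => ?_
  by_contra hne
  refine hn ?_
  rw [← hζ.zpow_eq_one_iff_dvd, mul_right_cancel₀ hne (hcoef n), hω0,
    hζ.zpow_eq_one_iff_dvd]
  exact hr0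

/-- A relation `∑ qExpand r aᵢ Jⁱ = 0` of degree less than `r`, `J` of order `-1`, is trivial. -/
theorem false_of_relation {r d : ℕ} [NeZero r] (hd : d < r) {J : LaurentSeries Qb}
    (hJ : J ≠ 0) (hJo : J.order = -1) (a : ℕ → LaurentSeries Qb) (had : a d ≠ 0)
    (h : ∑ i ∈ Finset.range (d + 1), qExpand Qb r (a i) * J ^ i = 0) : False := by
  classical
  set T : ℕ → LaurentSeries Qb := fun i => qExpand Qb r (a i) * J ^ i
  set s := (Finset.range (d + 1)).filter fun i => T i ≠ 0
  have hJp : ∀ i, J ^ i ≠ 0 := fun i => pow_ne_zero i hJ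
  have hds : d ∈ s := Finset.mem_filter.mpr ⟨Finset.self_mem_range_succ d,
    mul_ne_zero ((map_ne_zero_iff _ (qExpand_injective r)).mpr had) (hJp d)⟩
  have hord : ∀ i ∈ s, (r : ℤ) ∣ (T i).order + i := fun i hi => by
    have hq : qExpand Qb r (a i) ≠ 0 := left_ne_zero_of_mul (Finset.mem_filter.mp hi).2
    have hq' : (r : ℤ) ∣ (qExpand Qb r (a i)).order := by
      by_contra hnd
      exact HahnSeries.coeff_order_eq_zero.not.mpr hq
        (qExpand_coeff_of_not_dvd r _ hnd)
    change (r : ℤ) ∣ (qExpand Qb r (a i) * J ^ i).order + i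
    rw [HahnSeries.order_mul hq (hJp i), HahnSeries.order_pow, hJo, nsmul_eq_mul]
    simpa using hq'
  obtain ⟨i₀, hi₀, hmin⟩ := s.exists_min_image (fun i => (T i).order) ⟨d, hds⟩
  have h1 := congrArg (fun S : LaurentSeries Qb => S.coeff (T i₀).order) h
  rw [HahnSeries.coeff_sum, Finset.sum_eq_single i₀, HahnSeries.coeff_zero] at h1
  · exact HahnSeries.coeff_order_eq_zero.not.mpr (Finset.mem_filter.mp hi₀).2 h1
  · intro i hi hne
    by_cases hTi : T i = 0
    · change (T i).coeff _ = 0
      rw [hTi, HahnSeries.coeff_zero]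
    refine HahnSeries.coeff_eq_zero_of_lt_order ?_
    have his : i ∈ s := Finset.mem_filter.mpr ⟨hi, hTi⟩
    refine lt_of_le_of_ne (hmin i his) fun e => hne ?_
    have e1 := dvd_sub (hord i his) (hord i₀ hi₀)
    rw [show (T i).order = (T i₀).order from e.symm, add_sub_add_left_eq_sub] at e1
    have hi' := Finset.mem_range.mp hi
    have hi₀' := Finset.mem_range.mp (Finset.mem_filter.mp hi₀).1
    have h0 := Int.eq_zero_of_abs_lt_dvd e1 (by rw [abs_lt]; omega)
    omega
  · exact fun hn => (hn (Finset.mem_filter.mp hi₀).1).elim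

variable {N : ℕ} [NeZero N] {r : ℕ} [NeZero r] [FF.IsFunctionField Qb (FN N Qb)]
  [FF.IsFunctionField Qb (FN (N * r) Qb)]

/-- **No new `p`-th roots at level `N r`.** -/
theorem exists_root_of_pow_mem (hr : r.Prime) (hrN : ¬ r ∣ N) {p : ℕ} (hp : p.Prime) (hpr : p ≠ r)
    {g : FN (N * r) Qb} {a : FN N Qb} (hg : g ^ p = heckeAlphaBar Qb N r a) :
    ∃ b, heckeAlphaBar Qb N r b = g := by
  have := Fact.mk hr
  set α := heckeAlphaBar Qb N r
  let := algebraAlong α
  let : Module (FN N Qb) (FN (N * r) Qb) := Algebra.toModule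
  let : MulAction (FN N Qb) (FN (N * r) Qb) := inferInstance
  have : IsScalarTower (FN N Qb) (FN N Qb) (FN (N * r) Qb) := IsScalarTower.left _
  have : IsScalarTower Qb (FN N Qb) (FN (N * r) Qb) :=
    IsScalarTower.of_algebraMap_eq fun c => (α.commutes c).symm
  have : Module.Finite (FN N Qb) (FN (N * r) Qb) := FF.finiteAlong α
  by_contra hnot
  push Not at hnot
  -- the functions which are series in `q ^ r` form an intermediate field containing `g`
  set e := emb N r hr hrN false
  have he : ∀ b : FN N Qb, e (α b) = qExpand Qb r (b : LaurentSeries Qb) :=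
    emb_false_alpha N r hr hrN
  let E : IntermediateField (FN N Qb) (FN (N * r) Qb) :=
    { ((qExpand Qb r).fieldRange.comap e) with
      algebraMap_mem' := fun b => ⟨_, (he b).symm⟩ }
  have hgE : g ∈ E := mem_range_of_pow hp hr hpr (by
    rw [← map_pow, hg, he]; exact ⟨_, rfl⟩)
  set K := IntermediateField.adjoin (FN N Qb) {g}
  have hKE : K ≤ E := IntermediateField.adjoin_le_iff.mpr (Set.singleton_subset_iff.mpr hgE)
  have : Module.Free (FN N Qb) K := Module.Free.of_divisionRing _ _
  have : Module.Free K (FN (N * r) Qb) := Module.Free.of_divisionRing _ _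
  have hdeg : Module.finrank (FN N Qb) (FN (N * r) Qb) = r + 1 :=
    CongX0.finrankAlong_alpha_bar N r hr hrN
  -- unless `g` comes from below, `j` has degree less than `r` over the field of `g`
  have hK1 : Module.finrank (FN N Qb) K ≠ 1 := fun h1 => by
    rw [IntermediateField.finrank_eq_one_iff] at h1
    have : g ∈ (⊥ : IntermediateField (FN N Qb) (FN (N * r) Qb)) :=
      h1 ▸ IntermediateField.subset_adjoin _ _ rfl
    obtain ⟨b, hb⟩ := IntermediateField.mem_bot.mp this
    exact hnot b hb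
  set jr := heckeBetaBar Qb N r (jL N Qb)
  have hJ : e jr = jqModC Qb := by rw [emb_false_beta N r hr hrN, coe_jL]
  have hmul := Module.finrank_mul_finrank (FN N Qb) K (FN (N * r) Qb)
  rw [hdeg] at hmul
  have hd : (minpoly K jr).natDegree < r := by
    refine lt_of_le_of_lt (minpoly.natDegree_le jr) ?_
    generalize hm : Module.finrank K (FN (N * r) Qb) = m at hmul ⊢
    generalize hl : Module.finrank (FN N Qb) K = l at hmul hK1
    have := hr.two_le
    rcases Nat.lt_or_ge l 2 with hl2 | hl2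
    · interval_cases l
      · simp at hmul
      · exact (hK1 rfl).elim
    · nlinarith
  set P := minpoly K jr
  have hint : IsIntegral K jr := Algebra.IsIntegral.isIntegral jr
  -- its minimal polynomial would be a relation of degree `< r` over the series in `q ^ r`
  have hcoef : ∀ i, ∃ b : LaurentSeries Qb, qExpand Qb r b = e (P.coeff i : FN (N * r) Qb) :=
    fun i => hKE (P.coeff i).2
  choose b hb using hcoef
  have hjc : (jqModC Qb).coeff (-1) ≠ 0 := by rw [coeff_jqModC_neg_one]; exact one_ne_zero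
  refine false_of_relation hd (J := jqModC Qb) (fun h0 => hjc (by rw [h0, HahnSeries.coeff_zero]))
    Fermat.HT.Cusp.order_jqModC b ?_ ?_
  · intro h0
    have := hb P.natDegree
    rw [h0, map_zero, (minpoly.monic hint).coeff_natDegree, OneMemClass.coe_one, map_one] at this
    exact zero_ne_one this
  · have h0 := congrArg e (minpoly.aeval K jr)
    rw [Polynomial.aeval_eq_sum_range, map_sum, map_zero] at h0
    rw [← h0]
    refine Finset.sum_congr rfl fun i _ => ?_
    rw [hb, ← hJ, Algebra.smul_def, map_mul, map_pow]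
    rfl

end Kummer

/-- **The pullback is injective on `p`-torsion.** -/
theorem pullN_injective {r p : ℕ} (hr : r.Prime) (hrN : ¬ r ∣ N) (hN' : N' = N * r) (hp : p.Prime)
    (hpr : p ≠ r) {x : JZero N} (hx : p • x = 0) (h0 : pullN h x = 0) : x = 0 := by
  have : NeZero r := ⟨hr.ne_zero⟩
  subst hN'
  have hi : inclN h = heckeAlphaBar Qb N r := AlgHom.ext fun f => Subtype.ext (by
    rw [coe_inclN, coe_heckeAlphaBar])
  obtain ⟨D, rfl⟩ := Pic0.mk_surjective x
  have hx' : Pic0.mk (p • D) = 0 := (map_nsmul (QuotientAddGroup.mk' _) p D).trans hx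
  rw [pic0_mk_eq_zero_iff] at hx'
  obtain ⟨y, hy, hyD⟩ := hx'
  have hdiv : divOf Qb y = p • (D : Divisor Qb (FN N Qb)) := hyD.trans (AddSubgroup.coe_nsmul _ _ _)
  change pullPic (inclN h) (Pic0.mk D) = 0 at h0
  rw [pullPic_mk (inclN h) D (pullDiv_mem_degZero h D.2), pic0_mk_eq_zero_iff] at h0
  obtain ⟨g, hg, hgD⟩ := h0
  have h1 : divOf Qb (inclN h y) = divOf Qb (g ^ p) := by
    rw [divOf_pow, hgD, ← pullDiv_divOf (inclN h) y, hdiv, map_nsmul]
  obtain ⟨c, -, hc⟩ := exists_eq_smul_of_divOf_eq ((map_ne_zero _).mpr hy) (pow_ne_zero p hg) h1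
  obtain ⟨d, hd⟩ := IsAlgClosed.exists_pow_nat_eq c hp.pos
  obtain ⟨b, hb⟩ := exists_root_of_pow_mem hr hrN hp hpr
    (g := algebraMap Qb (FN (N * r) Qb) d * g) (a := y)
    (by rw [mul_pow, ← map_pow, hd, ← hc, hi])
  have hby : b ^ p = y := (heckeAlphaBar Qb N r).toRingHom.injective (by
    change heckeAlphaBar Qb N r (b ^ p) = heckeAlphaBar Qb N r y
    rw [map_pow, hb, mul_pow, ← map_pow, hd, ← hc, hi])
  have hb0 : b ≠ 0 := fun e => hy (by rw [← hby, e, zero_pow hp.ne_zero])
  refine (pic0_mk_eq_zero_iff (D := D)).mpr ⟨b, hb0,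
    smul_right_injective (Divisor Qb (FN N Qb)) hp.ne_zero ?_⟩
  change p • divOf Qb b = p • (D : Divisor Qb (FN N Qb))
  rw [← divOf_pow, hby, hdiv]

end Fermat.MZ

end
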