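import Fermat.Agent.MZ.Irr
import Fermat.Agent.SW.TorsionRep

/-!
# Irreducible residual representations with cyclotomic determinant

The residual representations of the Mazur principle: open kernel, cyclotomic determinant, no
invariant line.  The irreducible torsion of a curve is one.
-/

set_option autoImplicit false

noncomputable section

namespace Fermat.MZ

local notation "Γℚ" => (AlgebraicClosure ℚ ≃ₐ[ℚ] AlgebraicClosure ℚ)

/-- An irreducible residual representation with cyclotomic determinant. -/
structure IsIrrResidual (p : ℕ) [Fact p.Prime] (rb : Γℚ →* GL (Fin 2) (ZMod p)) : Prop where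
  /-- The kernel is open. -/
  isOpen_ker : IsOpen (rb.ker : Set Γℚ)
  /-- The determinant is the cyclotomic character. -/
  det_eq : ∀ σ, (rb σ : Matrix (Fin 2) (Fin 2) (ZMod p)).det =
    ((Fermat.CFT.cycChar p σ : (ZMod p)ˣ) : ZMod p)
  /-- No line is stable. -/
  noLine : NoLine rb

namespace IsIrrResidual

variable {p : ℕ} [Fact p.Prime] {rb : Γℚ →* GL (Fin 2) (ZMod p)} (h : IsIrrResidual p rb)
include h

/-- Complex conjugation makes the image odd. -/
theorem oddImage (h2 : 2 < p) : OddImage rb :=
  oddImage_of_involution h2 h.noLine (γ := complexConjugation)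
    complexConjugation_mul_self (by
      rw [h.det_eq]; exact Fermat.CFT.cycloChar_complexConjugation)

end IsIrrResidual

open Fermat.SW

variable {p : ℕ} [hp : Fact p.Prime]

/-- The torsion of a curve with irreducible torsion. -/
theorem isIrrResidual_tRep {W : WeierstrassCurve ℤ} (hW : W.Δ ≠ 0)
    (hirr : W.ModRepIsIrreducible p) : IsIrrResidual p (Tors.tRep (p := p) W hW) :=
  ⟨Tors.isOpen_ker_tRep hW, Tors.det_tRep hW, Tors.irr_tRep hW hirr⟩

end Fermat.MZ

end
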