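import Fermat.Agent.MZ.Main
import Fermat.Agent.MZ.Geo
import Fermat.Prelude.Def_WeierstrassCurve_PeuRamifiee

/-!
# The Mazur principle at `p` for every odd prime `p`

For `p ≥ 5` by `MZ/Main`; for `p = 3` the descent comes from the geometry of the supersingular
elliptic points (`MZ/Geo`).

`residuallyModular_div`: for a curve this is S39 (peu ramifiée at `p`) and S40 (good at `p`).
-/

set_option autoImplicit false

noncomputable section

namespace Fermat.MZ

local notation "Γℚ" => (AlgebraicClosure ℚ ≃ₐ[ℚ] AlgebraicClosure ℚ)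

/-- **Descent for `p = 3`**: by the geometry of the supersingular elliptic points. -/
theorem hasDescent_three [Fact (Nat.Prime 3)] {M : ℕ} [NeZero M]
    {rb : Γℚ →* GL (Fin 2) (ZMod 3)} (hrb : IsIrrResidual 3 rb) (hpM : ¬ 3 ∣ M)
    {A : ValuationSubring (AlgebraicClosure ℚ)} (hA : A.LiesOverPrime 3) :
    HasDescent 3 M rb A := by
  obtain ⟨r, hgt, hr, hmodr⟩ := Nat.forall_exists_prime_gt_and_modEq (M + 3) (q := 12) (a := 11)
    (by norm_num) (by decide)
  have h12 : r % 12 = 11 := hmodr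
  have hrM : ¬ r ∣ M := fun h => absurd (Nat.le_of_dvd (Nat.pos_of_neZero M) h) (by omega)
  refine ⟨r, hr, h12, hrM, by omega, ?_⟩
  intro _ _ _ _ _ H hH hup heig P
  obtain ⟨i, hi⟩ := exists_good_prime_irr (by norm_num) hrb M
  have : NeZero i.1 := ⟨i.2.1.ne_zero⟩
  exact Geo.dvd_ord_of_pull_three hA hpM hr h12 hH hup i.2.1 i.2.2.1 (heig i)
    (by rw [ZMod.natCast_zmod_val]; exact hi) P

/-- **Residual modularity at level `M / p`**, for every odd `p` with `p ∥ M` and `p ∣ v_p(Δ)`. -/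
theorem residuallyModular_div {W : WeierstrassCurve ℤ} (hW : W.Δ ≠ 0) {p : ℕ} (hp : p.Prime)
    (hp2 : p ≠ 2) (hsemi : (p : ℤ) ∣ W.Δ → ¬ (p : ℤ) ∣ W.c₄) (hirr : W.ModRepIsIrreducible p)
    (hdvd : p ∣ padicValInt p W.Δ) {M : ℕ} (hM : 0 < M) (hpM : p ∣ M) (hp2M : ¬ p ^ 2 ∣ M)
    (hmod : W.IsResiduallyModularOfLevel p M) :
    W.IsResiduallyModularOfLevel p (M / p) := by
  have := Fact.mk hp
  by_cases hp5 : 5 ≤ p
  · exact residuallyModular_div_of_five_le hW hp5 hsemi hirr hdvd hM hpM hp2M hmod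
  obtain rfl : p = 3 := by
    have := hp.two_le
    interval_cases p
    · exact absurd rfl hp2
    · rfl
    · norm_num at hp
  refine residuallyModular_div_of_hasDescent hW hp2 hsemi hirr hdvd hM hpM hp2M
    (fun {_} A hA => hasDescent_three (isIrrResidual_tRep hW hirr)
      (fun h => hp2M (pow_two 3 ▸ (Nat.dvd_div_iff_mul_dvd hpM).mp h)) hA) hmod

end Fermat.MZ

end
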